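import Mathlib
import Fermat.Prelude.Def_ModularCurve_X0
import Fermat.Prelude.Def_ModularCurve_LaurentCoeff

/-!
# S24 layer (C1a): the formal `q`-series of the Prelude are the `q`-expansions of `E₄`, `Δ`, `j`

* `qExpansion_E4`: the `q`-expansion of `E₄` is the Prelude's `eisenstein4` (`1 + 240 Σ σ₃(n) qⁿ`);
* `qExpansion_discriminant`: the `q`-expansion of `Δ` is `q ∏ (1 - qⁿ)²⁴`, with the Prelude's formal
  product `dedekindEtaUnit = etaProd ^ 24`;
* `jq_mul_discriminant`: hence the Prelude's `jq` is "the `q`-expansion of `j = E₄³/Δ`".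

Pure Mathlib + Prelude; no other input.
-/

set_option autoImplicit false

open UpperHalfPlane ModularCurve

namespace Fermat.Agent.X0S24.EtaBridge

open Filter Topology

/-- the Taylor series at `0` of a function, as a formal power series -/
noncomputable def tay (g : ℂ → ℂ) : PowerSeries ℂ :=
  PowerSeries.mk fun m => ((m.factorial : ℂ))⁻¹ * iteratedDeriv m g 0

theorem coeff_tay (g : ℂ → ℂ) (m : ℕ) :
    (tay g).coeff m = ((m.factorial : ℂ))⁻¹ * iteratedDeriv m g 0 := by
  simp [tay]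

theorem tay_congr {f g : ℂ → ℂ} (h : f =ᶠ[𝓝 0] g) : tay f = tay g := by
  ext m
  rw [coeff_tay, coeff_tay, h.iteratedDeriv_eq m]

theorem tay_mul {f g : ℂ → ℂ} (hf : AnalyticAt ℂ f 0) (hg : AnalyticAt ℂ g 0) :
    tay (f * g) = tay f * tay g := by
  ext m
  simp only [coeff_tay, iteratedDeriv_mul hf.contDiffAt hg.contDiffAt, Finset.mul_sum,
    PowerSeries.coeff_mul, Finset.Nat.sum_antidiagonal_eq_sum_range_succ_mk, Nat.succ_eq_add_one]
  refine Finset.sum_congr rfl fun i hi ↦ ?_
  rw [Nat.cast_choose _ (by grind)]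
  field_simp [Nat.factorial_ne_zero]

theorem tay_sub {f g : ℂ → ℂ} (hf : AnalyticAt ℂ f 0) (hg : AnalyticAt ℂ g 0) :
    tay (f - g) = tay f - tay g := by
  ext m
  simp [coeff_tay, iteratedDeriv_sub hf.contDiffAt hg.contDiffAt, mul_sub]

theorem tay_one : tay (1 : ℂ → ℂ) = 1 := by
  ext m
  have h2 : iteratedDeriv m (1 : ℂ → ℂ) 0 = if m = 0 then 1 else 0 := by
    simpa [ite_apply] using! iteratedDeriv_const
  simp +contextual [coeff_tay, h2, PowerSeries.coeff_one]

theorem tay_id : tay (fun q : ℂ => q) = PowerSeries.X := by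
  ext m
  rw [coeff_tay, PowerSeries.coeff_X, iteratedDeriv_fun_id_zero]
  split_ifs with h
  · subst h; simp
  · simp

theorem tay_pow {f : ℂ → ℂ} (hf : AnalyticAt ℂ f 0) (n : ℕ) : tay (f ^ n) = tay f ^ n := by
  induction n with
  | zero => simpa using tay_one
  | succ n ih => rw [pow_succ, pow_succ, tay_mul (hf.pow n) hf, ih]

theorem tay_prod {ι : Type*} (s : Finset ι) (f : ι → ℂ → ℂ) (hf : ∀ i ∈ s, AnalyticAt ℂ (f i) 0) :
    tay (∏ i ∈ s, f i) = ∏ i ∈ s, tay (f i) := by
  classical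
  induction s using Finset.induction_on with
  | empty => simpa using tay_one
  | insert a s ha ih =>
    rw [Finset.prod_insert ha, Finset.prod_insert ha,
      tay_mul (hf a (Finset.mem_insert_self a s))
        (Finset.analyticAt_prod _ fun i hi => hf i (Finset.mem_insert_of_mem hi)),
      ih fun i hi => hf i (Finset.mem_insert_of_mem hi)]

theorem analyticAt_factor (n : ℕ) : AnalyticAt ℂ (fun q : ℂ => 1 - q ^ (n + 1)) 0 := by
  fun_prop

theorem tay_factor (n : ℕ) :
    tay (fun q : ℂ => 1 - q ^ (n + 1)) = 1 - PowerSeries.X ^ (n + 1) := by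
  have h1 : (fun q : ℂ => 1 - q ^ (n + 1)) = (1 : ℂ → ℂ) - (fun q : ℂ => q) ^ (n + 1) := by
    ext q; simp
  have hid : AnalyticAt ℂ (fun q : ℂ => q) 0 := analyticAt_id
  rw [h1, tay_sub (f := (1 : ℂ → ℂ)) (g := (fun q : ℂ => q) ^ (n + 1)) (by exact analyticAt_const)
    (hid.pow (n + 1)), tay_one, tay_pow hid, tay_id]

/-- Taylor series of the partial products -/
theorem tay_partial (s : Finset ℕ) :
    tay (fun q : ℂ => ∏ n ∈ s, (1 - q ^ (n + 1)))
      = (∏ n ∈ s, (1 - PowerSeries.X ^ (n + 1) : PowerSeries ℤ)).map (Int.castRingHom ℂ) := by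
  have h1 : (fun q : ℂ => ∏ n ∈ s, (1 - q ^ (n + 1)))
      = ∏ n ∈ s, (fun q : ℂ => 1 - q ^ (n + 1)) := by
    ext q; simp
  rw [h1, tay_prod s _ fun n _ => analyticAt_factor n, map_prod]
  refine Finset.prod_congr rfl fun n _ => ?_
  rw [tay_factor]
  simp

theorem differentiableOn_iteratedDeriv {g : ℂ → ℂ} {U : Set ℂ} (hU : IsOpen U)
    (hg : DifferentiableOn ℂ g U) : ∀ k : ℕ, DifferentiableOn ℂ (iteratedDeriv k g) U
  | 0 => by simpa [iteratedDeriv_zero] using hg
  | k + 1 => by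
    rw [iteratedDeriv_succ]
    exact (differentiableOn_iteratedDeriv hU hg k).deriv hU

theorem tendsto_iteratedDeriv {ι : Type*} {φ : Filter ι} {F : ι → ℂ → ℂ} {f : ℂ → ℂ} {U : Set ℂ}
    (hU : IsOpen U) (hF : TendstoLocallyUniformlyOn F f φ U)
    (hd : ∀ i, DifferentiableOn ℂ (F i) U) :
    ∀ k : ℕ, TendstoLocallyUniformlyOn (fun i => iteratedDeriv k (F i)) (iteratedDeriv k f) φ U
  | 0 => by simpa [iteratedDeriv_zero] using hF
  | k + 1 => by
    have h := (tendsto_iteratedDeriv hU hF hd k).deriv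
      (Eventually.of_forall fun i => differentiableOn_iteratedDeriv hU (hd i) k) hU
    simpa [iteratedDeriv_succ, Function.comp_def] using h

open scoped PowerSeries.WithPiTopology in
/-- the Taylor series of the analytic Euler product is the formal Euler product -/
theorem tay_euler :
    tay (fun q : ℂ => ∏' n : ℕ, (1 - q ^ (n + 1))) = etaProd.map (Int.castRingHom ℂ) := by
  ext k
  -- analytic side
  have hA : HasProdLocallyUniformlyOn (fun (n : ℕ) (q : ℂ) => 1 - q ^ (n + 1))
      (fun q : ℂ => ∏' n : ℕ, (1 - q ^ (n + 1))) (Metric.ball (0 : ℂ) 1) :=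
    ModularForm.multipliableLocallyUniformlyOn_one_sub_pow.hasProdLocallyUniformlyOn
  rw [HasProdLocallyUniformlyOn] at hA
  have hA2 := (tendsto_iteratedDeriv Metric.isOpen_ball hA
    (fun s => by
      apply Differentiable.differentiableOn
      fun_prop) k).tendsto_at
    (Metric.mem_ball_self one_pos)
  have hA3 : Tendsto (fun s : Finset ℕ => (tay (fun q : ℂ => ∏ n ∈ s, (1 - q ^ (n + 1)))).coeff k)
      atTop (𝓝 ((tay (fun q : ℂ => ∏' n : ℕ, (1 - q ^ (n + 1)))).coeff k)) := by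
    simp only [coeff_tay]
    exact hA2.const_mul _
  -- formal side
  have hF : HasProd (fun n : ℕ => (1 - PowerSeries.X ^ (n + 1) : PowerSeries ℤ)) etaProd :=
    (PowerSeries.WithPiTopology.multipliable_one_sub_X_pow ℤ).hasProd
  have hF2 : Tendsto (fun s : Finset ℕ =>
      (((∏ n ∈ s, (1 - PowerSeries.X ^ (n + 1) : PowerSeries ℤ)).coeff k : ℤ) : ℂ))
      atTop (𝓝 ((etaProd.coeff k : ℤ) : ℂ)) :=
    ((continuous_of_discreteTopology (f := (Int.cast : ℤ → ℂ))).tendsto _).comp
      (((PowerSeries.WithPiTopology.continuous_coeff ℤ k).tendsto _).comp hF)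
  have hF3 : Tendsto (fun s : Finset ℕ => (tay (fun q : ℂ => ∏ n ∈ s, (1 - q ^ (n + 1)))).coeff k)
      atTop (𝓝 ((etaProd.coeff k : ℤ) : ℂ)) := by
    refine hF2.congr fun s => ?_
    rw [tay_partial, PowerSeries.coeff_map]
    simp
  rw [PowerSeries.coeff_map]
  simpa using tendsto_nhds_unique hA3 hF3

/-- the `q`-expansion of `E₄` -/
theorem qExpansion_E4 :
    qExpansion 1 (⇑ModularForm.E₄) = eisenstein4.map (Int.castRingHom ℂ) := by
  ext m
  rw [EisensteinSeries.E_qExpansion_coeff (by norm_num) ⟨2, rfl⟩ m, PowerSeries.coeff_map,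
    eisenstein4, PowerSeries.coeff_mk]
  split_ifs with h
  · simp
  · have hb : bernoulli 4 = -1 / 30 := by decide +kernel
    simp [hb, ArithmeticFunction.sigma_apply]
    norm_num

/-- the `q`-expansion of `Δ` -/
theorem qExpansion_discriminant :
    qExpansion 1 ModularForm.discriminant
      = PowerSeries.X * dedekindEtaUnit.map (Int.castRingHom ℂ) := by
  have h1 : qExpansion 1 ModularForm.discriminant
      = tay (cuspFunction 1 ModularForm.discriminant) := by
    ext m
    rw [qExpansion_coeff, coeff_tay]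
  have h2 : cuspFunction 1 ModularForm.discriminant
      =ᶠ[𝓝 0] (fun q : ℂ => q) * (fun q : ℂ => ∏' n : ℕ, (1 - q ^ (n + 1))) ^ 24 := by
    filter_upwards [Metric.ball_mem_nhds (0 : ℂ) one_pos] with q hq
    rw [ModularForm.discriminant_cuspFunction_eqOn hq]
    simp only [Pi.mul_apply, Pi.pow_apply]
    rw [(ModularForm.multipliable_one_sub_pow (by simpa using hq)).tprod_pow]
  have hG : AnalyticAt ℂ (fun q : ℂ => ∏' n : ℕ, (1 - q ^ (n + 1))) 0 :=
    ModularForm.differentiableOn_tprod_one_sub_pow.analyticAt (Metric.ball_mem_nhds 0 one_pos)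
  have hid : AnalyticAt ℂ (fun q : ℂ => q) 0 := analyticAt_id
  rw [h1, tay_congr h2, tay_mul hid (hG.pow 24), tay_id, tay_pow hG, tay_euler, dedekindEtaUnit,
    map_pow]

theorem coeffMap_ofPowerSeries {R S : Type*} [CommRing R] [CommRing S] (f : R →+* S)
    (p : PowerSeries R) :
    coeffMap f (HahnSeries.ofPowerSeries ℤ R p) = HahnSeries.ofPowerSeries ℤ S (p.map f) := by
  ext k
  rw [coeffMap_coeff]
  rcases lt_or_ge k 0 with hk | hk
  · rw [ofPowerSeries_coeff_of_neg _ hk, ofPowerSeries_coeff_of_neg _ hk, map_zero]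
  · obtain ⟨n, rfl⟩ := Int.eq_ofNat_of_zero_le hk
    rw [HahnSeries.ofPowerSeries_apply_coeff, HahnSeries.ofPowerSeries_apply_coeff,
      PowerSeries.coeff_map]

/-- `jq` (with complex coefficients) times the `q`-expansion of `Δ` is the cube of the
`q`-expansion of `E₄`. -/
theorem jq_mul_discriminant :
    coeffMap (algebraMap ℚ ℂ) jq
        * HahnSeries.ofPowerSeries ℤ ℂ (qExpansion 1 ModularForm.discriminant)
      = HahnSeries.ofPowerSeries ℤ ℂ (qExpansion 1 (⇑ModularForm.E₄)) ^ 3 := by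
  have hj : coeffMap (algebraMap ℚ ℂ) jq
      = HahnSeries.single (-1 : ℤ) (1 : ℂ)
        * HahnSeries.ofPowerSeries ℤ ℂ (jNum.map (Int.castRingHom ℂ)) := by
    rw [jq, map_mul, coeffMap_single, map_one, coeffMap_ofPowerSeries, jNumQ]
    congr 2
  have hmul : (jNum.map (Int.castRingHom ℂ)) * (dedekindEtaUnit.map (Int.castRingHom ℂ))
      = (eisenstein4.map (Int.castRingHom ℂ)) ^ 3 := by
    rw [← map_mul, ← map_pow, jNum, mul_assoc, mul_comm dedekindEtaUnitInv,
      dedekindEtaUnit_mul_inv, mul_one]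
  rw [hj, qExpansion_discriminant, qExpansion_E4, map_mul, HahnSeries.ofPowerSeries_X, ← map_pow,
    ← hmul, map_mul]
  have h1 : HahnSeries.single (-1 : ℤ) (1 : ℂ) * HahnSeries.single (1 : ℤ) (1 : ℂ) = 1 := by
    rw [HahnSeries.single_mul_single]
    simp
  calc HahnSeries.single (-1 : ℤ) (1 : ℂ)
        * HahnSeries.ofPowerSeries ℤ ℂ (jNum.map (Int.castRingHom ℂ))
        * (HahnSeries.single (1 : ℤ) (1 : ℂ)
          * HahnSeries.ofPowerSeries ℤ ℂ (dedekindEtaUnit.map (Int.castRingHom ℂ)))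
      = (HahnSeries.single (-1 : ℤ) (1 : ℂ) * HahnSeries.single (1 : ℤ) (1 : ℂ))
        * (HahnSeries.ofPowerSeries ℤ ℂ (jNum.map (Int.castRingHom ℂ))
          * HahnSeries.ofPowerSeries ℤ ℂ (dedekindEtaUnit.map (Int.castRingHom ℂ))) := by ring
    _ = _ := by rw [h1, one_mul]

end Fermat.Agent.X0S24.EtaBridge
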