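import Mathlib
import Fermat.Prelude.Def_ModularCurve_ArithmeticGalois
import Fermat.Prelude.Def_GaloisRep_ComplexConjugation

/-!
# S24 layer (C0): the fixed embedding `ℚ̄ → ℂ`

The `Algebra (AlgebraicClosure ℚ) ℂ` instance used throughout the concrete part of the S24
layer (namespace `Fermat.Agent.X0S24`).
-/

set_option autoImplicit false

namespace Fermat.Agent.X0S24.Base

/-- the fixed embedding `ℚ̄ → ℂ` (the Prelude's `complexEmbedding`) as an algebra structure -/
noncomputable instance qbarAlgebra : Algebra (AlgebraicClosure ℚ) ℂ :=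
  complexEmbedding.toRingHom.toAlgebra

theorem algebraMap_qbar_apply (c : AlgebraicClosure ℚ) :
    algebraMap (AlgebraicClosure ℚ) ℂ c = complexEmbedding c := rfl

end Fermat.Agent.X0S24.Base
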