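import Mathlib
import Fermat.Prelude.Def_ModularCurve_LaurentCoeff
import Fermat.Prelude.Def_ModularCurve_X0

/-!
# S24 layer (G8): linear and algebraic dependence descend along coefficient extension

`κ : K₀((q)) → K((q))`, the coefficientwise map followed by `q ↦ q^N`.
Generic; no modular input.
-/

set_option autoImplicit false

open scoped IntermediateField
open ModularCurve

namespace Fermat.Agent.X0S24.Descent

variable {K₀ K : Type*} [Field K₀] [Field K] [Algebra K₀ K]

/-- coefficient extension followed by `q ↦ q ^ N` -/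
noncomputable def kappa (N : ℕ) [NeZero N] : LaurentSeries K₀ →+* LaurentSeries K :=
  (qExpand K N).comp (coeffMap (algebraMap K₀ K))

theorem kappa_coeff_mul (N : ℕ) [NeZero N] (f : LaurentSeries K₀) (k : ℤ) :
    (kappa (K := K) N f).coeff ((N : ℤ) * k) = algebraMap K₀ K (f.coeff k) := by
  rw [kappa, RingHom.comp_apply, qExpand_coeff_mul, coeffMap_coeff]

theorem kappa_coeff_of_not_dvd (N : ℕ) [NeZero N] (f : LaurentSeries K₀) {k : ℤ}
    (hk : ¬ (N : ℤ) ∣ k) : (kappa (K := K) N f).coeff k = 0 := by
  rw [kappa, RingHom.comp_apply]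
  exact qExpand_coeff_of_not_dvd N _ hk

theorem kappa_injective (N : ℕ) [NeZero N] :
    Function.Injective (kappa (K₀ := K₀) (K := K) N) := by
  intro f g hfg
  ext k
  have h := congrArg (fun z : LaurentSeries K => z.coeff ((N : ℤ) * k)) hfg
  simp only [kappa_coeff_mul] at h
  exact (algebraMap K₀ K).injective h

theorem kappa_algebraMap (N : ℕ) [NeZero N] (c : K₀) :
    kappa (K := K) N (algebraMap K₀ (LaurentSeries K₀) c)
      = algebraMap K (LaurentSeries K) (algebraMap K₀ K c) := by
  rw [algebraMap_laurentSeries_eq_single, algebraMap_laurentSeries_eq_single, kappa,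
    RingHom.comp_apply, coeffMap_single, qExpand_single, mul_zero]

theorem order_kappa (N : ℕ) [NeZero N] (f : LaurentSeries K₀) :
    (kappa (K := K) N f).order = (N : ℤ) * f.order := by
  rcases eq_or_ne f 0 with rfl | hf
  · simp
  have hkf : kappa (K := K) N f ≠ 0 := fun h =>
    hf (kappa_injective (K := K) N (by rw [h, map_zero]))
  have hN : (0 : ℤ) < (N : ℤ) := by exact_mod_cast Nat.pos_of_ne_zero (NeZero.ne N)
  apply le_antisymm
  · apply HahnSeries.order_le_of_coeff_ne_zero
    rw [kappa_coeff_mul]
    intro h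
    exact hf (HahnSeries.coeff_order_eq_zero.1
      ((algebraMap K₀ K).injective (by rw [h, map_zero])))
  · have h1 : (kappa (K := K) N f).coeff (kappa (K := K) N f).order ≠ 0 :=
      fun h => hkf (HahnSeries.coeff_order_eq_zero.1 h)
    by_cases hd : (N : ℤ) ∣ (kappa (K := K) N f).order
    · obtain ⟨k, hk⟩ := hd
      rw [hk] at h1 ⊢
      rw [kappa_coeff_mul] at h1
      have h2 : f.coeff k ≠ 0 := fun h => h1 (by rw [h, map_zero])
      exact mul_le_mul_of_nonneg_left (HahnSeries.order_le_of_coeff_ne_zero h2) hN.le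
    · exact absurd (kappa_coeff_of_not_dvd N f hd) h1

/-- if `kappa f` is a constant then `f` is a constant -/
theorem eq_algebraMap_of_kappa_eq (N : ℕ) [NeZero N] (f : LaurentSeries K₀) (c : K)
    (h : kappa (K := K) N f = algebraMap K (LaurentSeries K) c) :
    ∃ c₀ : K₀, f = algebraMap K₀ (LaurentSeries K₀) c₀ ∧ algebraMap K₀ K c₀ = c := by
  have hN : (N : ℤ) ≠ 0 := by exact_mod_cast NeZero.ne N
  rw [algebraMap_laurentSeries_eq_single] at h
  have hc : ∀ k : ℤ, algebraMap K₀ K (f.coeff k)
      = (HahnSeries.single (0 : ℤ) c).coeff ((N : ℤ) * k) := by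
    intro k
    rw [← kappa_coeff_mul (K := K) N f k, h]
  refine ⟨f.coeff 0, ?_, ?_⟩
  · rw [algebraMap_laurentSeries_eq_single]
    ext k
    rcases eq_or_ne k 0 with rfl | hk
    · rw [HahnSeries.coeff_single_same]
    · rw [HahnSeries.coeff_single_of_ne hk]
      have h1 := hc k
      rw [HahnSeries.coeff_single_of_ne (mul_ne_zero hN hk)] at h1
      exact (algebraMap K₀ K).injective (by rw [h1, map_zero])
  · have h1 := hc 0
    rwa [mul_zero, HahnSeries.coeff_single_same] at h1

/-- `K₀`-linearly independent families stay `K`-linearly independent after `kappa`. -/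
theorem linearIndependent_kappa (N : ℕ) [NeZero N] {ι : Type*} (v : ι → LaurentSeries K₀)
    (hv : LinearIndependent K₀ v) :
    LinearIndependent K (fun i => kappa (K := K) N (v i)) := by
  rw [linearIndependent_iff'] at hv ⊢
  intro s c hc i hi
  rw [← Module.forall_dual_apply_eq_zero_iff K₀ (c i)]
  intro φ
  refine hv s (fun i => φ (c i)) ?_ i hi
  ext k
  have h1 := congrArg (fun z : LaurentSeries K => φ (z.coeff ((N : ℤ) * k))) hc
  simp only [HahnSeries.coeff_sum, HahnSeries.coeff_smul, kappa_coeff_mul, smul_eq_mul,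
    map_sum, HahnSeries.coeff_zero, map_zero] at h1
  simp only [HahnSeries.coeff_sum, HahnSeries.coeff_smul, smul_eq_mul, HahnSeries.coeff_zero]
  rw [← h1]
  refine Finset.sum_congr rfl fun i _ => ?_
  rw [mul_comm (c i), ← Algebra.smul_def, map_smul, smul_eq_mul, mul_comm]

section Monomials

open Polynomial
open scoped IntermediateField.algebraAdjoinAdjoin

variable {F L : Type*} [Field F] [Field L] [Algebra F L]

/-- a nontrivial relation among the monomials `a ^ k * y ^ i` gives a nonzero
two-variable polynomial vanishing at `(a, y)` -/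
theorem exists_poly_of_not_linearIndependent (a y : L)
    (h : ¬ LinearIndependent F (fun ik : ℕ × ℕ => a ^ ik.2 * y ^ ik.1)) :
    ∃ P : F[X][X], P ≠ 0 ∧ eval₂ ((aeval a : F[X] →ₐ[F] L) : F[X] →+* L) y P = 0 := by
  rw [linearIndependent_iff'] at h
  simp only [not_forall] at h
  obtain ⟨s, g, hsum, i0, hi0, hg⟩ := h
  refine ⟨∑ ik ∈ s, C (monomial ik.2 (g ik)) * X ^ ik.1, ?_, ?_⟩
  · intro hP
    have h1 := congrArg (fun P : F[X][X] => (P.coeff i0.1).coeff i0.2) hP
    simp only [finsetSum_coeff, coeff_C_mul_X_pow, coeff_zero] at h1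
    have h2 : ∀ ik ∈ s, (if i0.1 = ik.1 then monomial ik.2 (g ik) else (0 : F[X])).coeff i0.2
        = if ik = i0 then g ik else 0 := by
      intro ik _
      by_cases h1 : i0.1 = ik.1
      · rw [if_pos h1, coeff_monomial]
        by_cases h2 : ik.2 = i0.2
        · rw [if_pos h2, if_pos (Prod.ext h1.symm h2)]
        · rw [if_neg h2, if_neg (fun h => h2 (by rw [h]))]
      · rw [if_neg h1, coeff_zero, if_neg (fun h => h1 (by rw [h]))]
    rw [Finset.sum_congr rfl h2, Finset.sum_ite_eq' s i0, if_pos hi0] at h1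
    exact hg h1
  · rw [eval₂_finsetSum, ← hsum]
    refine Finset.sum_congr rfl fun ik _ => ?_
    rw [eval₂_mul, eval₂_C, eval₂_pow, eval₂_X]
    simp only [AlgHom.coe_toRingHom, aeval_monomial, Algebra.smul_def, mul_assoc]

/-- if `y` is algebraic over `F(a)` then the monomials `a ^ k * y ^ i` are `F`-linearly
dependent -/
theorem not_linearIndependent_of_isAlgebraic (a y : L) (h : IsAlgebraic F⟮a⟯ y) :
    ¬ LinearIndependent F (fun ik : ℕ × ℕ => a ^ ik.2 * y ^ ik.1) := by
  intro hli
  rw [← IsFractionRing.isAlgebraic_iff (Algebra.adjoin F {a}) F⟮a⟯ L] at h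
  obtain ⟨p, hp, hpy⟩ := h
  have hr : ∀ i : ℕ, ∃ r : F[X], aeval a r = ((p.coeff i : Algebra.adjoin F {a}) : L) := by
    intro i
    have h1 : ((p.coeff i : Algebra.adjoin F {a}) : L) ∈ (aeval a : F[X] →ₐ[F] L).range := by
      rw [← Algebra.adjoin_singleton_eq_range_aeval]
      exact (p.coeff i).2
    exact h1
  choose r hr using hr
  set n := p.natDegree with hn
  set M := (Finset.range (n + 1)).sup (fun i => (r i).natDegree) with hM
  have hMi : ∀ i ∈ Finset.range (n + 1), (r i).natDegree < M + 1 := fun i hi =>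
    Nat.lt_succ_of_le (Finset.le_sup (f := fun i => (r i).natDegree) hi)
  rw [linearIndependent_iff'] at hli
  have hrel : ∑ ik ∈ Finset.range (n + 1) ×ˢ Finset.range (M + 1),
      (r ik.1).coeff ik.2 • (a ^ ik.2 * y ^ ik.1) = 0 := by
    rw [Finset.sum_product]
    rw [aeval_eq_sum_range] at hpy
    rw [← hpy]
    refine Finset.sum_congr rfl fun i hi => ?_
    have h3 : p.coeff i • y ^ i = ((p.coeff i : Algebra.adjoin F {a}) : L) * y ^ i := rfl
    rw [h3, ← hr i, aeval_eq_sum_range' (hMi i hi), Finset.sum_mul]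
    refine Finset.sum_congr rfl fun k _ => ?_
    rw [smul_mul_assoc]
  have hz := hli _ (fun ik : ℕ × ℕ => (r ik.1).coeff ik.2) hrel
  apply hp
  refine Polynomial.ext fun i => ?_
  rw [coeff_zero]
  by_cases hi : i ∈ Finset.range (n + 1)
  · have hri : r i = 0 := by
      ext k
      rw [coeff_zero]
      by_cases hk : k ∈ Finset.range (M + 1)
      · exact hz (i, k) (Finset.mem_product.2 ⟨hi, hk⟩)
      · apply coeff_eq_zero_of_natDegree_lt
        have := hMi i hi
        rw [Finset.mem_range] at hk
        omega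
    have h2 := hr i
    rw [hri, map_zero] at h2
    apply Subtype.ext
    rw [← h2]
    rfl
  · apply coeff_eq_zero_of_natDegree_lt
    rw [Finset.mem_range] at hi
    omega

/-- if the monomials `a ^ k * y ^ i` are `F`-linearly dependent and `a` is transcendental
then `y` is algebraic over `F(a)` -/
theorem isAlgebraic_of_not_linearIndependent (a y : L) (ha : Transcendental F a)
    (h : ¬ LinearIndependent F (fun ik : ℕ × ℕ => a ^ ik.2 * y ^ ik.1)) :
    IsAlgebraic F⟮a⟯ y := by
  obtain ⟨P, hP, hPy⟩ := exists_poly_of_not_linearIndependent a y h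
  set φ : F[X] →+* F⟮a⟯ :=
    ((aeval (IntermediateField.AdjoinSimple.gen F a) : F[X] →ₐ[F] F⟮a⟯) : F[X] →+* F⟮a⟯)
    with hφ
  have hcomp : (algebraMap F⟮a⟯ L).comp φ = ((aeval a : F[X] →ₐ[F] L) : F[X] →+* L) := by
    ext p
    · simp [hφ]
    · simp [hφ]
  have hinj : Function.Injective φ := by
    intro p q hpq
    have h1 := congrArg (algebraMap F⟮a⟯ L) hpq
    rw [← RingHom.comp_apply, ← RingHom.comp_apply, hcomp] at h1
    exact (transcendental_iff_injective.1 ha) h1
  refine ⟨P.map φ, ?_, ?_⟩
  · intro h0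
    apply hP
    apply Polynomial.map_injective φ hinj
    rw [h0, Polynomial.map_zero]
  · rw [aeval_def, eval₂_map, hcomp]
    exact hPy

end Monomials

/-- the `K`-module structure on `K((q))` coming from the algebra structure (through power
series) agrees with the coefficientwise one -/
theorem algebra_toModule_eq (F : Type*) [Field F] :
    (Algebra.toModule : Module F (LaurentSeries F)) = HahnSeries.instModule := by
  refine Module.ext' _ _ fun c f => ?_
  change algebraMap F (LaurentSeries F) c * f = c • f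
  rw [algebraMap_laurentSeries_eq_single, HahnSeries.single_zero_mul_eq_smul]

/-- **Descent of algebraic dependence.**  If `kappa x` is algebraic over `K(kappa j)` and
`j` is transcendental over `K₀`, then `x` is algebraic over `K₀(j)`. -/
theorem isAlgebraic_of_kappa (N : ℕ) [NeZero N] (j x : LaurentSeries K₀)
    (hj : Transcendental K₀ j)
    (h : IsAlgebraic K⟮kappa (K := K) N j⟯ (kappa (K := K) N x)) :
    IsAlgebraic K₀⟮j⟯ x := by
  have h0 : ¬ LinearIndependent K₀ (fun ik : ℕ × ℕ => j ^ ik.2 * x ^ ik.1) := by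
    intro hli
    have h1 := linearIndependent_kappa (K := K) N _ hli
    have h2 := not_linearIndependent_of_isAlgebraic (F := K) _ _ h
    rw [algebra_toModule_eq K] at h2
    apply h2
    simpa only [map_mul, map_pow] using h1
  rw [← algebra_toModule_eq K₀] at h0
  exact isAlgebraic_of_not_linearIndependent (F := K₀) j x hj h0

end Fermat.Agent.X0S24.Descent
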