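import Mathlib
import Fermat.Prelude.Def_ModularCurve_X0
import Fermat.Prelude.Thm_UpperHalfPlane_qExpansion_coeff_nat_mul
import Fermat.Agent.X0Fld.JN

/-!
# S24 layer (C1b, analytic part): change of period and of variable in `q`-expansions

For a holomorphic, `1`-periodic function `F` on the upper half plane, bounded at `i∞`:
* `ofPowerSeries_qExpansion_natCast`: the expansion in `q_N = exp(2πi z/N)` is obtained from the
  expansion in `q = exp(2πi z)` by `q ↦ q_N ^ N` (the Prelude's `qExpand ℂ N`);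
* `ofPowerSeries_qExpansion_comp_mulPt`: the `q`-expansion of `z ↦ F (d z)` is obtained by
  `q ↦ q ^ d`; moreover `z ↦ F (d z)` is again holomorphic, `1`-periodic and bounded.

Generic analysis (Mathlib `qExpansion` API + `X0Fld.mulPt`).
-/

set_option autoImplicit false

open UpperHalfPlane ModularCurve
open scoped Manifold

namespace Fermat.Agent.X0S24.QN

open Fermat.Agent.X0Fld

variable {F : ℍ → ℂ}

/-- a power series whose coefficients are those of `Q` spread out by the factor `N` is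
`qExpand N` of `Q`, as Laurent series -/
theorem ofPowerSeries_eq_qExpand (N : ℕ) [NeZero N] (P Q : PowerSeries ℂ)
    (hc : ∀ n : ℕ, P.coeff n = if N ∣ n then Q.coeff (n / N) else 0) :
    HahnSeries.ofPowerSeries ℤ ℂ P = qExpand ℂ N (HahnSeries.ofPowerSeries ℤ ℂ Q) := by
  have hN : 0 < N := NeZero.pos N
  ext k
  by_cases hk : 0 ≤ k
  · obtain ⟨n, rfl⟩ := Int.eq_ofNat_of_zero_le hk
    rw [HahnSeries.ofPowerSeries_apply_coeff, hc n]
    by_cases hd : N ∣ n
    · obtain ⟨m, rfl⟩ := hd
      rw [if_pos (dvd_mul_right N m), Nat.mul_div_cancel_left m hN]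
      push_cast
      rw [qExpand_coeff_mul, HahnSeries.ofPowerSeries_apply_coeff]
    · rw [if_neg hd, qExpand_coeff_of_not_dvd]
      exact_mod_cast hd
  · have hk' : k < 0 := not_le.mp hk
    rw [ofPowerSeries_coeff_of_neg _ hk']
    by_cases hd : (N : ℤ) ∣ k
    · obtain ⟨m, rfl⟩ := hd
      rw [qExpand_coeff_mul, ofPowerSeries_coeff_of_neg]
      by_contra hm
      have h1 : (0 : ℤ) ≤ (N : ℤ) * m := mul_nonneg (by positivity) (not_lt.mp hm)
      omega
    · rw [qExpand_coeff_of_not_dvd _ _ hd]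

/-- change of period: `q_N`-expansion of a `1`-periodic function -/
theorem ofPowerSeries_qExpansion_natCast (N : ℕ) [NeZero N] (hol : MDiff F)
    (per : Function.Periodic (F ∘ ofComplex) 1) (bdd : IsBoundedAtImInfty F) :
    HahnSeries.ofPowerSeries ℤ ℂ (qExpansion (N : ℝ) F)
      = qExpand ℂ N (HahnSeries.ofPowerSeries ℤ ℂ (qExpansion 1 F)) := by
  have hN : 0 < N := NeZero.pos N
  apply ofPowerSeries_eq_qExpand
  intro n
  have := UpperHalfPlane.qExpansion_coeff_nat_mul (h := 1) one_pos (F := F)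
    (by simpa using per) hol bdd hN n
  simpa using this

theorem mdiff_comp_mulPt (d : ℕ) [NeZero d] (hol : MDiff F) :
    MDiff (fun z : ℍ => F (mulPt d z)) := by
  have h1 : (fun z : ℍ => F (mulPt d z)) = fun z : ℍ =>
      F (Fermat.Agent.S23L.Theta.UT (d : ℤ) 0 1 (jN_cast_ne d) • z) := by
    funext z
    rw [mulPt_eq_UT]
  rw [h1]
  exact hol.comp (mdifferentiable_smul
    (Fermat.Agent.S23L.Theta.UT_det_pos (d : ℤ) 0 1 (jN_cast_pos d) one_pos (jN_cast_ne d)))

theorem coe_mulPt (d : ℕ) [NeZero d] (z : ℍ) : ((mulPt d z : ℍ) : ℂ) = (d : ℂ) * (z : ℂ) := rfl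

theorem mulPt_eq_ofComplex (d : ℕ) [NeZero d] (z : ℍ) :
    mulPt d z = ofComplex ((d : ℂ) * (z : ℂ)) := by
  have him : 0 < ((d : ℂ) * (z : ℂ)).im := by
    rw [← coe_mulPt]; exact (mulPt d z).im_pos
  rw [ofComplex_apply_of_im_pos him]
  rfl

theorem periodic_comp_mulPt (d : ℕ) [NeZero d]
    (per : Function.Periodic (F ∘ ofComplex) 1) :
    Function.Periodic ((fun z : ℍ => F (mulPt d z)) ∘ ofComplex) 1 := by
  intro w
  by_cases hw : 0 < w.im
  · have hw' : 0 < (w + 1).im := by simpa using hw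
    simp only [Function.comp_apply, ofComplex_apply_of_im_pos hw', ofComplex_apply_of_im_pos hw]
    rw [mulPt_eq_ofComplex, mulPt_eq_ofComplex]
    have hper := per.nat_mul d ((d : ℂ) * w)
    simp only [Function.comp_apply, mul_one] at hper
    have e : (d : ℂ) * (((⟨w + 1, hw'⟩ : ℍ) : ℍ) : ℂ) = (d : ℂ) * w + (d : ℂ) := by
      show (d : ℂ) * (w + 1) = _
      ring
    rw [e, hper]
  · have hw0 : w.im ≤ 0 := not_lt.mp hw
    have hw' : (w + 1).im ≤ 0 := by simpa using hw0
    rw [Function.comp_apply, Function.comp_apply, ofComplex_apply_eq_of_im_nonpos hw' hw0]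

theorem im_mulPt (d : ℕ) [NeZero d] (z : ℍ) : (mulPt d z).im = (d : ℝ) * z.im := by
  have h : ((mulPt d z : ℍ) : ℂ).im = ((d : ℂ) * (z : ℂ)).im := by rw [coe_mulPt]
  simpa using h

theorem bdd_comp_mulPt (d : ℕ) [NeZero d] (bdd : IsBoundedAtImInfty F) :
    IsBoundedAtImInfty (fun z : ℍ => F (mulPt d z)) := by
  rw [isBoundedAtImInfty_iff] at bdd ⊢
  obtain ⟨M, A, h⟩ := bdd
  refine ⟨M, A, fun z hz => h _ ?_⟩
  rw [im_mulPt]
  have hd : (1 : ℝ) ≤ (d : ℝ) := by exact_mod_cast NeZero.pos d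
  nlinarith [z.im_pos]

theorem qParam_mulPt (d : ℕ) [NeZero d] (z : ℍ) :
    Function.Periodic.qParam 1 ((mulPt d z : ℍ) : ℂ) = Function.Periodic.qParam 1 (z : ℂ) ^ d := by
  rw [coe_mulPt, Function.Periodic.qParam, Function.Periodic.qParam, ← Complex.exp_nat_mul]
  congr 1
  push_cast
  ring

/-- change of variable: `q`-expansion of `z ↦ F (d z)` -/
theorem ofPowerSeries_qExpansion_comp_mulPt (d : ℕ) [NeZero d] (hol : MDiff F)
    (per : Function.Periodic (F ∘ ofComplex) 1) (bdd : IsBoundedAtImInfty F) :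
    HahnSeries.ofPowerSeries ℤ ℂ (qExpansion 1 (fun z : ℍ => F (mulPt d z)))
      = qExpand ℂ d (HahnSeries.ofPowerSeries ℤ ℂ (qExpansion 1 F)) := by
  have hd : 0 < d := NeZero.pos d
  have per' : Function.Periodic (F ∘ ofComplex) ((1 : ℝ) : ℂ) := by simpa using per
  have perG : Function.Periodic ((fun z : ℍ => F (mulPt d z)) ∘ ofComplex) ((1 : ℝ) : ℂ) := by
    simpa using periodic_comp_mulPt d per
  have han := analyticAt_cuspFunction_zero one_pos perG (mdiff_comp_mulPt d hol)
    (bdd_comp_mulPt d bdd)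
  have key : ∀ τ : ℍ, HasSum (fun n : ℕ =>
      (if d ∣ n then (qExpansion 1 F).coeff (n / d) else 0) •
        Function.Periodic.qParam 1 (τ : ℂ) ^ n) ((fun z : ℍ => F (mulPt d z)) τ) := by
    intro τ
    have h1 := hasSum_qExpansion one_pos per' hol bdd (mulPt d τ)
    rw [qParam_mulPt] at h1
    have hinj : Function.Injective (fun m : ℕ => d * m) :=
      fun a b hab => Nat.eq_of_mul_eq_mul_left hd hab
    refine (Function.Injective.hasSum_iff hinj ?_).mp ?_
    · intro n hn
      have hnd : ¬ d ∣ n := by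
        rintro ⟨m, rfl⟩
        exact hn ⟨m, rfl⟩
      rw [if_neg hnd, zero_smul]
    · convert h1 using 2 with m
      simp only [Function.comp_apply]
      rw [if_pos (dvd_mul_right d m), Nat.mul_div_cancel_left m hd, pow_mul]
  have hcont : Continuous (fun z : ℍ => F (mulPt d z)) := (mdiff_comp_mulPt d hol).continuous
  apply ofPowerSeries_eq_qExpand
  intro n
  exact (UpperHalfPlane.qExpansion_coeff_unique
    (c := fun n : ℕ => if d ∣ n then (qExpansion 1 F).coeff (n / d) else 0)
    (ContinuousMap.mk (fun z : ℍ => F (mulPt d z)) hcont) one_pos han key n).symm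

end Fermat.Agent.X0S24.QN
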