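import Mathlib
import Fermat.Prelude.Def_ModularCurve_ArithmeticGalois
import Fermat.Agent.X0Fld.Datum
import Fermat.Agent.X0S24.Base
import Fermat.Agent.X0S24.Descent
import Fermat.Agent.X0S24.EtaBridge
import Fermat.Agent.X0S24.QN

/-!
# S24 layer (C1b): the expansion at `i∞` of `j(d z)` is the Prelude's `qExpand d jq`

`Tinf N : Fld N →ₐ[ℂ] ℂ((q_N))` is the expansion at `i∞` in `q_N = exp(2πi z/N)`;
`Descent.kappa N : ℚ̄((q)) → ℂ((q_N))` is `q ↦ q_N ^ N` on the coefficients embedded in `ℂ`.
-/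

set_option autoImplicit false

open UpperHalfPlane ModularCurve
open scoped Manifold

namespace Fermat.Agent.X0S24.JqMatch

open Fermat.Agent.X0Fld Fermat.Agent.X0S24.Base

/-- `κ_N` of a series with rational coefficients -/
theorem kappa_coeffEmb (N : ℕ) [NeZero N] (x : LaurentSeries ℚ) :
    Descent.kappa (K := ℂ) N (coeffEmb (AlgebraicClosure ℚ) x)
      = qExpand ℂ N (coeffMap (algebraMap ℚ ℂ) x) := by
  rw [Descent.kappa, RingHom.comp_apply, coeffEmb, coeffMap_coeffMap]
  congr 1
  exact coeffMap_congr (Subsingleton.elim _ _) x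

/-- `coeffMap` commutes with `qExpand` -/
theorem coeffMap_qExpand {R S : Type*} [CommRing R] [CommRing S] (f : R →+* S) (d : ℕ) [NeZero d]
    (x : LaurentSeries R) : coeffMap f (qExpand R d x) = qExpand S d (coeffMap f x) := by
  ext k
  rw [coeffMap_coeff]
  by_cases hk : (d : ℤ) ∣ k
  · obtain ⟨m, rfl⟩ := hk
    rw [qExpand_coeff_mul, qExpand_coeff_mul, coeffMap_coeff]
  · rw [qExpand_coeff_of_not_dvd d _ hk, qExpand_coeff_of_not_dvd d _ hk, map_zero]

/-- holomorphic, `1`-periodic, bounded at `i∞` -/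
structure Nice (F : ℍ → ℂ) : Prop where
  mdiff : MDiff F
  per : Function.Periodic (F ∘ ofComplex) 1
  bdd : IsBoundedAtImInfty F

theorem Nice.analyticAt {F : ℍ → ℂ} (hF : Nice F) : AnalyticAt ℂ (cuspFunction 1 F) 0 :=
  analyticAt_cuspFunction_zero one_pos (by simpa using hF.per) hF.mdiff hF.bdd

theorem Nice.mul {F G : ℍ → ℂ} (hF : Nice F) (hG : Nice G) : Nice (fun z => F z * G z) where
  mdiff := hF.mdiff.mul hG.mdiff
  per := fun w => by
    have h1 := hF.per w
    have h2 := hG.per w
    simp only [Function.comp_apply] at h1 h2 ⊢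
    rw [h1, h2]
  bdd := hF.bdd.mul hG.bdd

theorem Nice.one : Nice (fun _ : ℍ => (1 : ℂ)) where
  mdiff := mdifferentiable_const
  per := fun _ => rfl
  bdd := Filter.const_boundedAtFilter atImInfty (1 : ℂ)

theorem Nice.pow {F : ℍ → ℂ} (hF : Nice F) (k : ℕ) : Nice (fun z => F z ^ k) := by
  induction k with
  | zero => simpa using Nice.one
  | succ n ih =>
    have := ih.mul hF
    simpa [pow_succ] using this

theorem Nice.comp_mulPt {F : ℍ → ℂ} (hF : Nice F) (d : ℕ) [NeZero d] :
    Nice (fun z => F (mulPt d z)) where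
  mdiff := QN.mdiff_comp_mulPt d hF.mdiff
  per := QN.periodic_comp_mulPt d hF.per
  bdd := QN.bdd_comp_mulPt d hF.bdd

theorem Nice.qExpansion_mul {F G : ℍ → ℂ} (hF : Nice F) (hG : Nice G) :
    qExpansion 1 (fun z => F z * G z) = qExpansion 1 F * qExpansion 1 G :=
  UpperHalfPlane.qExpansion_mul hF.analyticAt hG.analyticAt

theorem Nice.qExpansion_pow {F : ℍ → ℂ} (hF : Nice F) (k : ℕ) :
    qExpansion 1 (fun z => F z ^ k) = qExpansion 1 F ^ k := by
  induction k with
  | zero =>
    have : (fun z : ℍ => F z ^ 0) = (1 : ℍ → ℂ) := by funext z; simp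
    rw [this, qExpansion_one, pow_zero]
  | succ n ih =>
    have : (fun z : ℍ => F z ^ (n + 1)) = fun z : ℍ => F z ^ n * F z := by
      funext z; rw [pow_succ]
    rw [this, (hF.pow n).qExpansion_mul hF, ih, pow_succ]

/-- periodicity on `ℂ` from invariance under `z ↦ 1 + z` -/
theorem periodic_of_vadd {F : ℍ → ℂ} (h : ∀ z : ℍ, F ((1 : ℝ) +ᵥ z) = F z) :
    Function.Periodic (F ∘ ofComplex) 1 := by
  have h1 := cuspOrder_periodic_comp_ofComplex 1 F (by simpa using h)
  simpa using h1

theorem nice_E4 : Nice (⇑ModularForm.E₄) where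
  mdiff := ModularFormClass.holo ModularForm.E₄
  per := by
    simpa using SlashInvariantFormClass.periodic_comp_ofComplex ModularForm.E₄
      one_mem_strictPeriods_SL
  bdd := ModularFormClass.bdd_at_infty ModularForm.E₄

theorem nice_discriminant : Nice ModularForm.discriminant where
  mdiff := mdiff_discriminant
  per := periodic_of_vadd (fun z => by simpa using cusp_discriminant_vadd 1 z)
  bdd := ModularForm.discriminant_isZeroAtImInfty.boundedAtFilter

theorem jFun_vadd (z : ℍ) : X0L1.jFun ((1 : ℝ) +ᵥ z) = X0L1.jFun z := by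
  have h := X0L1.jFun_smul ModularGroup.T z
  rwa [UpperHalfPlane.modular_T_smul] at h

theorem ofPowerSeries_qExpansion_discriminant_ne_zero :
    HahnSeries.ofPowerSeries ℤ ℂ (qExpansion 1 ModularForm.discriminant) ≠ 0 := by
  intro h
  have h1 : qExpansion 1 ModularForm.discriminant = 0 :=
    HahnSeries.ofPowerSeries_injective (by rw [h, map_zero])
  have h2 := ModularForm.discriminant_qExpansion_coeff_one
  rw [h1] at h2
  simp at h2

/-- the expansion at `i∞` of `j(d z)`, `d ∣ N` -/
theorem Tinf_jNB (N d : ℕ) [NeZero N] [NeZero d] (hd : d ∣ N) :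
    Tinf N (algebraMap (B N) (Fld N) (jNB N d hd))
      = Descent.kappa (K := ℂ) N (coeffEmb (AlgebraicClosure ℚ) (qExpand ℚ d jq)) := by
  rw [kappa_coeffEmb, coeffMap_qExpand, Tinf_algebraMap]
  have hb := cuspExp_spec (jNB N d hd)
  have hG : Nice (fun z : ℍ => ((jNB N d hd : B N) : ℍ → ℂ) z *
      ModularForm.discriminant z ^ cuspExp (jNB N d hd)) :=
    { mdiff := (jNB N d hd).2.mdiff.mul (mdiff_discriminant.pow _)
      per := fun w => by
        have h1 := QN.periodic_comp_mulPt d (periodic_of_vadd jFun_vadd) w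
        have h2 := (nice_discriminant.pow (cuspExp (jNB N d hd))).per w
        simp only [Function.comp_apply] at h1 h2 ⊢
        have e : ∀ z : ℍ, ((jNB N d hd : B N) : ℍ → ℂ) z = X0L1.jFun (mulPt d z) := fun _ => rfl
        rw [e, e, h1, h2]
      bdd := hb }
  have hspec := TinfB_spec N (jNB N d hd) _ hb
  rw [QN.ofPowerSeries_qExpansion_natCast N hG.mdiff hG.per hG.bdd] at hspec
  have hΔN : deltaL N =
      qExpand ℂ N (HahnSeries.ofPowerSeries ℤ ℂ (qExpansion 1 ModularForm.discriminant)) := by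
    rw [deltaL]
    exact QN.ofPowerSeries_qExpansion_natCast N nice_discriminant.mdiff nice_discriminant.per
      nice_discriminant.bdd
  have hfun : (fun z : ℍ => (((jNB N d hd : B N) : ℍ → ℂ) z *
      ModularForm.discriminant z ^ cuspExp (jNB N d hd)) * ModularForm.discriminant (mulPt d z)) =
      fun z : ℍ => (ModularForm.E₄ (mulPt d z)) ^ 3 *
        ModularForm.discriminant z ^ cuspExp (jNB N d hd) := by
    funext z
    have := X0L1.jFun_mul_discriminant (mulPt d z)
    show X0L1.jFun (mulPt d z) * ModularForm.discriminant z ^ cuspExp (jNB N d hd) *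
      ModularForm.discriminant (mulPt d z) = _
    rw [← this]
    ring
  have h2 := congrArg (qExpansion 1) hfun
  rw [hG.qExpansion_mul (nice_discriminant.comp_mulPt d),
    ((nice_E4.comp_mulPt d).pow 3).qExpansion_mul (nice_discriminant.pow _),
    (nice_E4.comp_mulPt d).qExpansion_pow 3, nice_discriminant.qExpansion_pow] at h2
  have h2' := congrArg (HahnSeries.ofPowerSeries ℤ ℂ) h2
  rw [map_mul, map_mul, map_pow, map_pow,
    QN.ofPowerSeries_qExpansion_comp_mulPt d nice_discriminant.mdiff nice_discriminant.per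
      nice_discriminant.bdd,
    QN.ofPowerSeries_qExpansion_comp_mulPt d nice_E4.mdiff nice_E4.per nice_E4.bdd] at h2'
  have h3 := congrArg (qExpand ℂ d) EtaBridge.jq_mul_discriminant
  rw [map_mul, map_pow] at h3
  have hD₁ := ofPowerSeries_qExpansion_discriminant_ne_zero
  have hdD : qExpand ℂ d
      (HahnSeries.ofPowerSeries ℤ ℂ (qExpansion 1 ModularForm.discriminant)) ≠ 0 :=
    fun h0 => hD₁ (qExpand_injective d (by rw [h0, map_zero]))
  have hG' : HahnSeries.ofPowerSeries ℤ ℂ (qExpansion 1 (fun z : ℍ =>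
      ((jNB N d hd : B N) : ℍ → ℂ) z * ModularForm.discriminant z ^ cuspExp (jNB N d hd))) =
      qExpand ℂ d (coeffMap (algebraMap ℚ ℂ) jq) *
        HahnSeries.ofPowerSeries ℤ ℂ (qExpansion 1 ModularForm.discriminant) ^
          cuspExp (jNB N d hd) := by
    apply mul_right_cancel₀ hdD
    rw [h2', ← h3]
    ring
  rw [hG', map_mul, map_pow, ← hΔN] at hspec
  exact mul_right_cancel₀ (pow_ne_zero _ (deltaL_ne_zero N)) hspec

/-- the expansion at `i∞` of `j` -/
theorem Tinf_jF (N : ℕ) [NeZero N] :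
    Tinf N (jF N) = Descent.kappa (K := ℂ) N (coeffEmb (AlgebraicClosure ℚ) jq) := by
  have h1 : jB N = jNB N 1 (one_dvd N) := by
    apply Subtype.ext
    funext z
    show X0L1.jFun z = X0L1.jFun (mulPt 1 z)
    congr 1
    apply UpperHalfPlane.ext
    rw [QN.coe_mulPt]
    simp
  have h2 := Tinf_jNB N 1 (one_dvd N)
  rw [qExpand_one_apply, ← h1] at h2
  exact h2

end Fermat.Agent.X0S24.JqMatch
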