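import Mathlib
import Fermat.Prelude.Def_ModularCurve_ArithmeticGalois
import Fermat.Agent.X0Fld.Datum
import Fermat.Agent.Cover.Count
import Fermat.Agent.Cover.W
import Fermat.Agent.X0S24.Base
import Fermat.Agent.X0S24.Descent
import Fermat.Agent.X0S24.JqMatch

/-!
# S24 layer (C2): embedding the function field over `ℚ̄` into the modular functions for `Γ₀(N)`

`F̄ = modularFunctionFieldBar N ⊆ ℚ̄((q))` is generated over `ℚ̄` by the series
`coeffEmb (qExpand ℚ d jq)`, `d ∣ N`, i.e. by the `q`-expansions of the functions `j(d z)`.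
These functions lie in `(datum N).F` (the `Γ₀(N)`-invariants of `Fld N`), and their expansion
at `i∞` is `κ_N` of the series (`JqMatch.Tinf_jNB`).  As `Tinf N` is injective, this gives a
ring embedding `iota N : F̄ →+* (datum N).F` characterized by `Tinf N (iota N x) = κ_N x`.
-/

set_option autoImplicit false

open ModularCurve

namespace Fermat.Agent.X0S24.Embed

open Fermat.Agent.X0Fld Fermat.Agent.CoverL Fermat.Agent.X0S24.Base

variable (N : ℕ) [NeZero N]

/-- the series over `ℚ̄` which are expansions at `i∞` of `Γ₀(N)`-invariant modular functions -/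
noncomputable def expSubfield : Subfield (LaurentSeries (AlgebraicClosure ℚ)) where
  carrier := {x | ∃ y : Fld N, y ∈ (datum N).F ∧ Tinf N y = Descent.kappa (K := ℂ) N x}
  mul_mem' := by
    rintro a b ⟨ya, hya, ha⟩ ⟨yb, hyb, hb⟩
    exact ⟨ya * yb, mul_mem hya hyb, by rw [map_mul, map_mul, ha, hb]⟩
  one_mem' := ⟨1, one_mem _, by rw [map_one, map_one]⟩
  add_mem' := by
    rintro a b ⟨ya, hya, ha⟩ ⟨yb, hyb, hb⟩
    exact ⟨ya + yb, add_mem hya hyb, by rw [map_add, map_add, ha, hb]⟩
  zero_mem' := ⟨0, zero_mem _, by rw [map_zero, map_zero]⟩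
  neg_mem' := by
    rintro a ⟨ya, hya, ha⟩
    exact ⟨-ya, neg_mem hya, by rw [map_neg, map_neg, ha]⟩
  inv_mem' := by
    rintro a ⟨ya, hya, ha⟩
    exact ⟨ya⁻¹, inv_mem hya, by rw [map_inv₀, map_inv₀, ha]⟩

theorem mem_expSubfield (x : LaurentSeries (AlgebraicClosure ℚ)) :
    x ∈ expSubfield N ↔
      ∃ y : Fld N, y ∈ (datum N).F ∧ Tinf N y = Descent.kappa (K := ℂ) N x :=
  Iff.rfl

theorem algebraMap_mem_expSubfield (c : AlgebraicClosure ℚ) :
    algebraMap (AlgebraicClosure ℚ) (LaurentSeries (AlgebraicClosure ℚ)) c ∈ expSubfield N := by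
  refine ⟨algebraMap ℂ (Fld N) (algebraMap (AlgebraicClosure ℚ) ℂ c),
    ((datum N).F).algebraMap_mem _, ?_⟩
  rw [Descent.kappa_algebraMap, AlgHom.commutes]

theorem jNB_mem_F (d : ℕ) [NeZero d] (hd : d ∣ N) :
    algebraMap (B N) (Fld N) (jNB N d hd) ∈ (datum N).F := by
  rw [CoverDatum.mem_F]
  intro h hh
  rw [datum_ρ, rho_algebraMap, actB_jNB N d hd hh]

theorem coeffEmb_jqd_mem_expSubfield (d : ℕ) [NeZero d] (hd : d ∣ N) :
    coeffEmb (AlgebraicClosure ℚ) (qExpand ℚ d jq) ∈ expSubfield N :=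
  ⟨algebraMap (B N) (Fld N) (jNB N d hd), jNB_mem_F N d hd, JqMatch.Tinf_jNB N d hd⟩

theorem coeffEmb_mem_expSubfield (z : LaurentSeries ℚ) (hz : z ∈ modularFunctionFieldFull N) :
    coeffEmb (AlgebraicClosure ℚ) z ∈ expSubfield N := by
  have hle : (modularFunctionFieldFull N).toSubfield
      ≤ (expSubfield N).comap (coeffEmb (AlgebraicClosure ℚ)) := by
    rw [modularFunctionFieldFull]
    show Subfield.closure (Set.range (algebraMap ℚ (LaurentSeries ℚ)) ∪ divisorExpansions N) ≤ _
    rw [Subfield.closure_le]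
    rintro y (⟨c, rfl⟩ | ⟨d, hne, hd, rfl⟩)
    · show coeffEmb (AlgebraicClosure ℚ) (algebraMap ℚ (LaurentSeries ℚ) c) ∈ expSubfield N
      rw [eq_ratCast, map_ratCast]
      exact SubfieldClass.ratCast_mem (expSubfield N) c
    · have : NeZero d := hne
      exact coeffEmb_jqd_mem_expSubfield N d hd
  exact hle hz

theorem bar_le_expSubfield :
    (modularFunctionFieldBar N).toSubfield ≤ expSubfield N := by
  show Subfield.closure
      (Set.range (algebraMap (AlgebraicClosure ℚ) (LaurentSeries (AlgebraicClosure ℚ))) ∪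
        (⇑(coeffEmb (AlgebraicClosure ℚ)) ''
          ((modularFunctionFieldFull N : IntermediateField ℚ (LaurentSeries ℚ)) :
            Set (LaurentSeries ℚ)))) ≤ _
  rw [Subfield.closure_le]
  rintro y (⟨c, rfl⟩ | ⟨z, hz, rfl⟩)
  · exact algebraMap_mem_expSubfield N c
  · exact coeffEmb_mem_expSubfield N z hz

theorem Tinf_injective : Function.Injective (Tinf N) := (Tinf N).toRingHom.injective

/-- every element of `F̄` is the `q`-expansion of a `Γ₀(N)`-invariant modular function -/
theorem exists_Tinf_eq (x : LaurentSeries (AlgebraicClosure ℚ))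
    (hx : x ∈ modularFunctionFieldBar N) :
    ∃ y : Fld N, y ∈ (datum N).F ∧ Tinf N y = Descent.kappa (K := ℂ) N x :=
  bar_le_expSubfield N hx

/-- the underlying function of `iota` -/
noncomputable def iotaFun (x : ↥(modularFunctionFieldBar N)) : ↥((datum N).F) :=
  ⟨Classical.choose (exists_Tinf_eq N x x.2), (Classical.choose_spec (exists_Tinf_eq N x x.2)).1⟩

theorem Tinf_iotaFun (x : ↥(modularFunctionFieldBar N)) :
    Tinf N ((iotaFun N x : ↥((datum N).F)) : Fld N)
      = Descent.kappa (K := ℂ) N (x : LaurentSeries (AlgebraicClosure ℚ)) :=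
  (Classical.choose_spec (exists_Tinf_eq N x x.2)).2

theorem eq_of_Tinf_eq {a b : ↥((datum N).F)}
    (h : Tinf N (a : Fld N) = Tinf N (b : Fld N)) : a = b :=
  Subtype.ext (Tinf_injective N h)

/-- the embedding of the function field over `ℚ̄` into the `Γ₀(N)`-invariant modular functions -/
noncomputable def iota : ↥(modularFunctionFieldBar N) →+* ↥((datum N).F) where
  toFun := iotaFun N
  map_one' := by
    apply eq_of_Tinf_eq
    rw [Tinf_iotaFun]
    simp
  map_mul' x y := by
    apply eq_of_Tinf_eq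
    rw [Tinf_iotaFun]
    simp [Tinf_iotaFun]
  map_zero' := by
    apply eq_of_Tinf_eq
    rw [Tinf_iotaFun]
    simp
  map_add' x y := by
    apply eq_of_Tinf_eq
    rw [Tinf_iotaFun]
    simp [Tinf_iotaFun]

/-- the characterization of `iota`: expansion at `i∞` -/
theorem Tinf_iota (x : ↥(modularFunctionFieldBar N)) :
    Tinf N ((iota N x : ↥((datum N).F)) : Fld N)
      = Descent.kappa (K := ℂ) N (x : LaurentSeries (AlgebraicClosure ℚ)) :=
  Tinf_iotaFun N x

theorem iota_algebraMap (c : AlgebraicClosure ℚ) :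
    iota N (algebraMap (AlgebraicClosure ℚ) ↥(modularFunctionFieldBar N) c)
      = algebraMap ℂ ↥((datum N).F) (algebraMap (AlgebraicClosure ℚ) ℂ c) := by
  apply eq_of_Tinf_eq
  rw [Tinf_iota]
  show Descent.kappa (K := ℂ) N
      (algebraMap (AlgebraicClosure ℚ) (LaurentSeries (AlgebraicClosure ℚ)) c)
    = Tinf N (algebraMap ℂ (Fld N) (algebraMap (AlgebraicClosure ℚ) ℂ c))
  rw [Descent.kappa_algebraMap, AlgHom.commutes]

/-- `j(d z)`, `d ∣ N`, as an element of the function field over `ℚ̄` -/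
noncomputable def jdBar (d : ℕ) [NeZero d] (hd : d ∣ N) : ↥(modularFunctionFieldBar N) :=
  ⟨coeffEmb (AlgebraicClosure ℚ) (qExpand ℚ d jq),
    coeffEmb_mem_laurentBaseChange (AlgebraicClosure ℚ) (jqd_mem_full N hd)⟩

/-- `j` as an element of the function field over `ℚ̄` -/
noncomputable def jbar : ↥(modularFunctionFieldBar N) :=
  ⟨coeffEmb (AlgebraicClosure ℚ) jq,
    coeffEmb_mem_laurentBaseChange (AlgebraicClosure ℚ)
      ((modularFunctionField_le_full N) (jq_mem N))⟩

@[simp] theorem coe_jbar :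
    ((jbar N : ↥(modularFunctionFieldBar N)) : LaurentSeries (AlgebraicClosure ℚ))
      = coeffEmb (AlgebraicClosure ℚ) jq := rfl

@[simp] theorem coe_jdBar (d : ℕ) [NeZero d] (hd : d ∣ N) :
    ((jdBar N d hd : ↥(modularFunctionFieldBar N)) : LaurentSeries (AlgebraicClosure ℚ))
      = coeffEmb (AlgebraicClosure ℚ) (qExpand ℚ d jq) := rfl

theorem coe_iota_jdBar (d : ℕ) [NeZero d] (hd : d ∣ N) :
    ((iota N (jdBar N d hd) : ↥((datum N).F)) : Fld N)
      = algebraMap (B N) (Fld N) (jNB N d hd) := by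
  apply Tinf_injective N
  rw [Tinf_iota, coe_jdBar, JqMatch.Tinf_jNB]

theorem iota_jbar : iota N (jbar N) = (datum N).jF := by
  apply eq_of_Tinf_eq
  rw [Tinf_iota, coe_jbar, CoverDatum.coe_jF, datum_j, JqMatch.Tinf_jF]

/-- `jbar` is not constant -/
theorem jbar_ne_algebraMap (c : AlgebraicClosure ℚ) :
    jbar N ≠ algebraMap (AlgebraicClosure ℚ) ↥(modularFunctionFieldBar N) c := by
  intro h
  have h1 : coeffEmb (AlgebraicClosure ℚ) jq
      = algebraMap (AlgebraicClosure ℚ) (LaurentSeries (AlgebraicClosure ℚ)) c :=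
    congrArg (fun x : ↥(modularFunctionFieldBar N) =>
      (x : LaurentSeries (AlgebraicClosure ℚ))) h
  have h2 := congrArg (fun x : LaurentSeries (AlgebraicClosure ℚ) => x.coeff (-1 : ℤ)) h1
  simp only [coeffEmb_coeff, coeff_jq_neg_one, map_one, algebraMap_laurentSeries_eq_single] at h2
  rw [HahnSeries.coeff_single_of_ne (by norm_num)] at h2
  exact one_ne_zero h2

/-- the elements of `F̄` which become constant are the constants of `ℚ̄` -/
theorem iota_const (x : ↥(modularFunctionFieldBar N)) (c : ℂ)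
    (h : iota N x = algebraMap ℂ ↥((datum N).F) c) :
    ∃ c₀ : AlgebraicClosure ℚ, x = algebraMap (AlgebraicClosure ℚ) ↥(modularFunctionFieldBar N) c₀ := by
  have h1 : Descent.kappa (K := ℂ) N (x : LaurentSeries (AlgebraicClosure ℚ))
      = algebraMap ℂ (LaurentSeries ℂ) c := by
    rw [← Tinf_iota, h]
    exact (Tinf N).commutes c
  obtain ⟨c₀, hc₀, -⟩ := Descent.eq_algebraMap_of_kappa_eq N _ c h1
  exact ⟨c₀, Subtype.ext hc₀⟩

end Fermat.Agent.X0S24.Embed
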