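import Mathlib
import Fermat.Prelude.Def_ModularCurve_ArithmeticGalois
import Fermat.Agent.X0Fld.Datum
import Fermat.Agent.Cover.Count
import Fermat.Agent.Cover.W
import Fermat.Agent.RR.Export
import Fermat.Agent.X0S24.Base
import Fermat.Agent.X0S24.Descent
import Fermat.Agent.X0S24.Embed

/-!
# S24 layer (C3a): `F̄` is algebraic over `ℚ̄(j)`

Via the linear-dependence characterization of `Descent`: for `x ∈ F̄`, the series
`κ_N x = Tinf N (iota N x)` is algebraic over `ℂ(κ_N j) = ℂ(Tinf N j)` because `(datum N).F`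
is finite over `ℂ(j)` (`Curve.finite_adjoin_of_nonconst` applied to the curve of
`CoverDatum.exists_curve`); the monomials `j ^ k * x ^ i` are therefore linearly dependent
over `ℂ` after `κ_N`, hence over `ℚ̄` (`Descent.linearIndependent_kappa`).
-/

set_option autoImplicit false

open ModularCurve
open scoped IntermediateField

namespace Fermat.Agent.X0S24.Alg

open Fermat.Agent.X0Fld Fermat.Agent.CoverL Fermat.Agent.RRL Fermat.Agent.X0S24.Base

variable (N : ℕ) [NeZero N]

/-- `coeffEmb jq` is transcendental over `ℚ̄` -/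
theorem transcendental_coeffEmb_jq :
    Transcendental (AlgebraicClosure ℚ) (coeffEmb (AlgebraicClosure ℚ) jq) := by
  intro h
  have hmem : coeffEmb (AlgebraicClosure ℚ) jq
      ∈ (algebraMap (AlgebraicClosure ℚ) (LaurentSeries (AlgebraicClosure ℚ))).range :=
    minpoly.mem_range_of_degree_eq_one _ _
      (IsAlgClosed.degree_eq_one_of_irreducible _ (minpoly.irreducible h.isIntegral))
  obtain ⟨c, hc⟩ := hmem
  have h1 := congrArg (fun z : LaurentSeries (AlgebraicClosure ℚ) => z.coeff (-1 : ℤ)) hc
  simp only [algebraMap_laurentSeries_eq_single, coeffEmb_coeff, coeff_jq_neg_one, map_one] at h1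
  rw [HahnSeries.coeff_single_of_ne (by decide)] at h1
  exact zero_ne_one h1

/-- the function field of `X₀(N)` over `ℂ` is finite over `ℂ(j)` -/
theorem finite_datum_F : Module.Finite ↥(ℂ⟮(datum N).jF⟯) ↥((datum N).F) := by
  obtain ⟨C, -⟩ := (datum N).exists_curve
  exact C.finite_adjoin_of_nonconst (datum N).jF_ne_algebraMap

section Generic

variable {F L L' : Type*} [Field F] [Field L] [Field L'] [Algebra F L] [Algebra F L']

/-- linear independence of the monomials `a ^ k * y ^ i` is transported by algebra homs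
of fields -/
theorem linearIndependent_monomials_map (f : L →ₐ[F] L') (a y : L) :
    LinearIndependent F (fun ik : ℕ × ℕ => f a ^ ik.2 * f y ^ ik.1)
      ↔ LinearIndependent F (fun ik : ℕ × ℕ => a ^ ik.2 * y ^ ik.1) := by
  have e : (fun ik : ℕ × ℕ => f a ^ ik.2 * f y ^ ik.1)
      = f.toLinearMap ∘ (fun ik : ℕ × ℕ => a ^ ik.2 * y ^ ik.1) := by
    funext ik
    simp only [Function.comp_apply, AlgHom.toLinearMap_apply, map_mul, map_pow]
  rw [e]
  exact f.toLinearMap.linearIndependent_iff (LinearMap.ker_eq_bot.2 f.toRingHom.injective)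

end Generic

/-- the expansion at `i∞` on the `Γ₀(N)`-invariant modular functions -/
noncomputable def phi : ↥((datum N).F) →ₐ[ℂ] LaurentSeries ℂ :=
  (Tinf N).comp (datum N).F.val

theorem phi_iota (x : ↥(modularFunctionFieldBar N)) :
    phi N (Embed.iota N x)
      = Descent.kappa (K := ℂ) N (x : LaurentSeries (AlgebraicClosure ℚ)) :=
  Embed.Tinf_iota N x

theorem transcendental_jbar : Transcendental (AlgebraicClosure ℚ) (Embed.jbar N) := by
  intro h
  apply transcendental_coeffEmb_jq
  have h1 := h.algHom (modularFunctionFieldBar N).val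
  exact h1

/-- the monomials in `κ j` and `κ x` are linearly dependent over `ℂ` -/
theorem not_linearIndependent_kappa (x : ↥(modularFunctionFieldBar N)) :
    ¬ @LinearIndependent (ℕ × ℕ) ℂ (LaurentSeries ℂ)
      (fun ik : ℕ × ℕ => Descent.kappa (K := ℂ) N (coeffEmb (AlgebraicClosure ℚ) jq) ^ ik.2
        * Descent.kappa (K := ℂ) N (x : LaurentSeries (AlgebraicClosure ℚ)) ^ ik.1)
      _ _ Algebra.toModule := by
  have hfin := finite_datum_F N
  have halg : IsAlgebraic ↥(ℂ⟮(datum N).jF⟯) (Embed.iota N x) :=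
    IsAlgebraic.of_finite _ _
  have h3 := Descent.not_linearIndependent_of_isAlgebraic (F := ℂ) _ _ halg
  rw [← linearIndependent_monomials_map (phi N), ← Embed.iota_jbar, phi_iota, phi_iota,
    Embed.coe_jbar] at h3
  exact h3

/-- the monomials in `jbar` and `x` are linearly dependent over `ℚ̄` -/
theorem not_linearIndependent_jbar (x : ↥(modularFunctionFieldBar N)) :
    ¬ @LinearIndependent (ℕ × ℕ) (AlgebraicClosure ℚ) ↥(modularFunctionFieldBar N)
      (fun ik : ℕ × ℕ => (Embed.jbar N) ^ ik.2 * x ^ ik.1) _ _ Algebra.toModule := by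
  intro hli
  rw [← linearIndependent_monomials_map (modularFunctionFieldBar N).val] at hli
  have hli' : LinearIndependent (AlgebraicClosure ℚ)
      (fun ik : ℕ × ℕ => coeffEmb (AlgebraicClosure ℚ) jq ^ ik.2
        * (x : LaurentSeries (AlgebraicClosure ℚ)) ^ ik.1) := by
    rw [← Descent.algebra_toModule_eq (AlgebraicClosure ℚ)]
    exact hli
  have h2 := Descent.linearIndependent_kappa (K := ℂ) N _ hli'
  have h3 := not_linearIndependent_kappa N x
  rw [Descent.algebra_toModule_eq ℂ] at h3
  apply h3
  simpa only [map_mul, map_pow] using h2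

/-- `F̄` is algebraic over `ℚ̄(j)` -/
theorem isAlgebraic_jbar :
    Algebra.IsAlgebraic ↥((AlgebraicClosure ℚ)⟮Embed.jbar N⟯) ↥(modularFunctionFieldBar N) :=
  ⟨fun x => Descent.isAlgebraic_of_not_linearIndependent (F := AlgebraicClosure ℚ) _ x
    (transcendental_jbar N) (not_linearIndependent_jbar N x)⟩

end Fermat.Agent.X0S24.Alg
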