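import Mathlib

/-!
# S24 layer (G5a): Kähler differentials of a function field of one variable in characteristic 0

`Ω[F⁄K] = F · dj` whenever `F` is algebraic over `K(j)` (characteristic zero).
Generic; no modular input.
-/

set_option autoImplicit false

open scoped IntermediateField
open KaehlerDifferential

namespace Fermat.Agent.X0S24.KaehlerSpan

variable {K F : Type*} [Field K] [Field F] [Algebra K F]

/-- `dx ∈ F · dj` for every `x ∈ K(j)`. -/
theorem D_mem_span_of_mem_adjoin (j : F) {x : F} (hx : x ∈ K⟮j⟯) :
    KaehlerDifferential.D K F x ∈ Submodule.span F {KaehlerDifferential.D K F j} := by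
  induction hx using IntermediateField.adjoin_induction with
  | mem x hx =>
    rw [Set.mem_singleton_iff] at hx
    subst hx
    exact Submodule.subset_span rfl
  | algebraMap c =>
    rw [Derivation.map_algebraMap]
    exact Submodule.zero_mem _
  | add x y _ _ hx hy =>
    rw [map_add]
    exact Submodule.add_mem _ hx hy
  | inv x _ hx =>
    rw [Derivation.leibniz_inv]
    exact Submodule.smul_mem _ _ hx
  | mul x y _ _ hx hy =>
    rw [Derivation.leibniz]
    exact Submodule.add_mem _ (Submodule.smul_mem _ _ hy) (Submodule.smul_mem _ _ hx)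

/-- the chain rule modulo `F · dj` for polynomials with coefficients in `K(j)`. -/
theorem D_aeval_sub_mem_span (j x : F) (p : Polynomial K⟮j⟯) :
    KaehlerDifferential.D K F (Polynomial.aeval x p)
        - Polynomial.aeval x (Polynomial.derivative p) • KaehlerDifferential.D K F x
      ∈ Submodule.span F {KaehlerDifferential.D K F j} := by
  induction p using Polynomial.induction_on' with
  | add p q hp hq =>
    have h := Submodule.add_mem _ hp hq
    convert h using 1
    simp only [map_add, add_smul]
    abel
  | monomial n a =>
    have ha : KaehlerDifferential.D K F (algebraMap K⟮j⟯ F a) ∈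
        Submodule.span F {KaehlerDifferential.D K F j} :=
      D_mem_span_of_mem_adjoin j a.2
    have h := Submodule.smul_mem _ (x ^ n) ha
    convert h using 1
    rw [Polynomial.aeval_monomial, Polynomial.derivative_monomial, Polynomial.aeval_monomial,
      Derivation.leibniz, Derivation.leibniz_pow]
    simp only [map_mul, map_natCast]
    rw [← Nat.cast_smul_eq_nsmul F n, smul_smul, smul_smul, mul_assoc]
    abel

/-- if `F` is algebraic over `K(j)` and `char = 0`, every differential is a multiple of `dj`. -/
theorem span_D_eq_top [CharZero K] (j : F) (halg : Algebra.IsAlgebraic K⟮j⟯ F) :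
    Submodule.span F {KaehlerDifferential.D K F j} = (⊤ : Submodule F Ω[F⁄K]) := by
  rw [eq_top_iff, ← KaehlerDifferential.span_range_derivation, Submodule.span_le]
  rintro _ ⟨x, rfl⟩
  have hxalg : IsAlgebraic K⟮j⟯ x := halg.isAlgebraic x
  have hint : IsIntegral K⟮j⟯ x := hxalg.isIntegral
  have : CharZero K⟮j⟯ := charZero_of_injective_algebraMap (algebraMap K K⟮j⟯).injective
  have hsep : (minpoly K⟮j⟯ x).Separable := (minpoly.irreducible hint).separable
  have hne : Polynomial.aeval x (Polynomial.derivative (minpoly K⟮j⟯ x)) ≠ 0 :=
    hsep.aeval_derivative_ne_zero (minpoly.aeval _ _)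
  have h := D_aeval_sub_mem_span (K := K) j x (minpoly K⟮j⟯ x)
  rw [minpoly.aeval, map_zero, zero_sub, neg_mem_iff] at h
  have h2 := Submodule.smul_mem _
    (Polynomial.aeval x (Polynomial.derivative (minpoly K⟮j⟯ x)))⁻¹ h
  rwa [smul_smul, inv_mul_cancel₀ hne, one_smul] at h2

/-- every differential is a multiple of `dj`. -/
theorem exists_eq_smul_D [CharZero K] (j : F) (halg : Algebra.IsAlgebraic K⟮j⟯ F)
    (ω : Ω[F⁄K]) : ∃ g : F, ω = g • KaehlerDifferential.D K F j := by
  have h : ω ∈ Submodule.span F {KaehlerDifferential.D K F j} := by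
    rw [span_D_eq_top j halg]
    exact Submodule.mem_top
  obtain ⟨g, hg⟩ := Submodule.mem_span_singleton.mp h
  exact ⟨g, hg.symm⟩

/-- a derivation with `D' j ≠ 0` witnesses `dj ≠ 0`. -/
theorem D_ne_zero_of_derivation {M : Type*} [AddCommGroup M] [Module K M] [Module F M]
    [IsScalarTower K F M] (D' : Derivation K F M) (j : F) (h : D' j ≠ 0) :
    KaehlerDifferential.D K F j ≠ 0 := by
  intro h0
  apply h
  rw [← Derivation.liftKaehlerDifferential_comp_D D', h0, map_zero]

/-- a relation between differentials transfers to any derivation: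
if `g • dy = f • dt` in `Ω[F⁄K]` then `g • D' y = f • D' t`. -/
theorem smul_derivation_eq {M : Type*} [AddCommGroup M] [Module K M] [Module F M]
    [IsScalarTower K F M] (D' : Derivation K F M) {g f y t : F}
    (h : g • KaehlerDifferential.D K F y = f • KaehlerDifferential.D K F t) :
    g • D' y = f • D' t := by
  have h2 := congrArg D'.liftKaehlerDifferential h
  rwa [map_smul, map_smul, Derivation.liftKaehlerDifferential_comp_D,
    Derivation.liftKaehlerDifferential_comp_D] at h2

end Fermat.Agent.X0S24.KaehlerSpan
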