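import Mathlib

/-!
# S24 layer (G4): the derivative of Laurent series is a derivation; order of the derivative

Generic; no modular input.
-/

set_option autoImplicit false

namespace Fermat.Agent.X0S24.LaurentDeriv

variable {L : Type*} [Field L]

/-- `d/dw` on `L((w))`: `(deriv f).coeff n = (n + 1) * f.coeff (n + 1)`. -/
noncomputable def deriv (f : LaurentSeries L) : LaurentSeries L :=
  LaurentSeries.derivative L f

theorem deriv_coeff (f : LaurentSeries L) (n : ℤ) :
    (deriv f).coeff n = ((n : L) + 1) * f.coeff (n + 1) := by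
  unfold deriv
  rw [LaurentSeries.derivative_apply, LaurentSeries.hasseDeriv_coeff]
  simp only [Nat.cast_one, Ring.choose_one_right, zsmul_eq_mul, Int.cast_add, Int.cast_one]

theorem deriv_add (f g : LaurentSeries L) : deriv (f + g) = deriv f + deriv g := by
  unfold deriv
  exact map_add _ f g

/-- the shifted support `{j | j + 1 ∈ supp g}` is partially well-ordered -/
theorem shift_isPWO (g : LaurentSeries L) : ((fun j : ℤ => j - 1) '' g.support).IsPWO :=
  g.isPWO_support.image_of_monotone (fun a b hab => by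
    show a - 1 ≤ b - 1
    omega)

theorem support_deriv_subset (g : LaurentSeries L) :
    (deriv g).support ⊆ (fun j : ℤ => j - 1) '' g.support := by
  intro j hj
  rw [HahnSeries.mem_support, deriv_coeff] at hj
  refine ⟨j + 1, ?_, by show j + 1 - 1 = j; omega⟩
  rw [HahnSeries.mem_support]
  exact right_ne_zero_of_mul hj

theorem coeff_mul_deriv (f g : LaurentSeries L) (n : ℤ) :
    (f * deriv g).coeff n =
      ∑ ij ∈ Finset.antidiagonal f.isPWO_support g.isPWO_support (n + 1),
        f.coeff ij.1 * ((ij.2 : L) * g.coeff ij.2) := by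
  rw [HahnSeries.coeff_mul_right' (shift_isPWO g) (support_deriv_subset g)]
  refine Finset.sum_nbij' (fun ij => (ij.1, ij.2 + 1)) (fun ij => (ij.1, ij.2 - 1)) ?_ ?_ ?_ ?_ ?_
  · rintro ⟨i, j⟩ h
    rw [Finset.mem_antidiagonal] at h ⊢
    obtain ⟨h1, ⟨j', hj', hjj⟩, h3⟩ := h
    have hjj' : j' - 1 = j := hjj
    have e : j + 1 = j' := by omega
    refine ⟨h1, ?_, ?_⟩
    · show j + 1 ∈ g.support
      rw [e]; exact hj'
    · show i + (j + 1) = n + 1
      have h3' : i + j = n := h3
      omega
  · rintro ⟨i, j⟩ h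
    rw [Finset.mem_antidiagonal] at h ⊢
    obtain ⟨h1, h2, h3⟩ := h
    have h3' : i + j = n + 1 := h3
    refine ⟨h1, ⟨j, h2, rfl⟩, ?_⟩
    show i + (j - 1) = n
    omega
  · rintro ⟨i, j⟩ _
    show (i, j + 1 - 1) = (i, j)
    rw [add_sub_cancel_right]
  · rintro ⟨i, j⟩ _
    show (i, j - 1 + 1) = (i, j)
    rw [sub_add_cancel]
  · rintro ⟨i, j⟩ _
    show f.coeff i * (deriv g).coeff j = f.coeff i * (((j + 1 : ℤ) : L) * g.coeff (j + 1))
    rw [deriv_coeff]
    push_cast
    rfl

theorem coeff_deriv_mul (f g : LaurentSeries L) (n : ℤ) :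
    (deriv f * g).coeff n =
      ∑ ij ∈ Finset.antidiagonal f.isPWO_support g.isPWO_support (n + 1),
        ((ij.1 : L) * f.coeff ij.1) * g.coeff ij.2 := by
  rw [HahnSeries.coeff_mul_left' (shift_isPWO f) (support_deriv_subset f)]
  refine Finset.sum_nbij' (fun ij => (ij.1 + 1, ij.2)) (fun ij => (ij.1 - 1, ij.2)) ?_ ?_ ?_ ?_ ?_
  · rintro ⟨i, j⟩ h
    rw [Finset.mem_antidiagonal] at h ⊢
    obtain ⟨⟨i', hi', hii⟩, h2, h3⟩ := h
    have hii' : i' - 1 = i := hii
    have e : i + 1 = i' := by omega
    refine ⟨?_, h2, ?_⟩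
    · show i + 1 ∈ f.support
      rw [e]; exact hi'
    · show (i + 1) + j = n + 1
      have h3' : i + j = n := h3
      omega
  · rintro ⟨i, j⟩ h
    rw [Finset.mem_antidiagonal] at h ⊢
    obtain ⟨h1, h2, h3⟩ := h
    have h3' : i + j = n + 1 := h3
    refine ⟨⟨i, h1, rfl⟩, h2, ?_⟩
    show (i - 1) + j = n
    omega
  · rintro ⟨i, j⟩ _
    show (i + 1 - 1, j) = (i, j)
    rw [add_sub_cancel_right]
  · rintro ⟨i, j⟩ _
    show (i - 1 + 1, j) = (i, j)
    rw [sub_add_cancel]
  · rintro ⟨i, j⟩ _
    show (deriv f).coeff i * g.coeff j = (((i + 1 : ℤ) : L) * f.coeff (i + 1)) * g.coeff j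
    rw [deriv_coeff]
    push_cast
    rfl

/-- Leibniz rule -/
theorem deriv_mul (f g : LaurentSeries L) : deriv (f * g) = f * deriv g + deriv f * g := by
  ext n
  rw [HahnSeries.coeff_add, deriv_coeff, coeff_mul_deriv, coeff_deriv_mul, HahnSeries.coeff_mul,
    Finset.mul_sum, ← Finset.sum_add_distrib]
  refine Finset.sum_congr rfl ?_
  rintro ⟨i, j⟩ h
  rw [Finset.mem_antidiagonal] at h
  have h3 : i + j = n + 1 := h.2.2
  have h3' : ((n : L) + 1) = (i : L) + (j : L) := by
    have := congrArg (Int.cast : ℤ → L) h3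
    push_cast at this
    exact this.symm
  show ((n : L) + 1) * (f.coeff i * g.coeff j) =
    f.coeff i * ((j : L) * g.coeff j) + ((i : L) * f.coeff i) * g.coeff j
  rw [h3']
  ring

theorem deriv_C (c : L) : deriv (HahnSeries.C c : LaurentSeries L) = 0 := by
  ext n
  rw [deriv_coeff, HahnSeries.C_apply, HahnSeries.coeff_zero]
  by_cases hn : n + 1 = 0
  · have : ((n : L) + 1) = 0 := by
      have := congrArg (Int.cast : ℤ → L) hn
      push_cast at this
      exact this
    rw [this, zero_mul]
  · rw [HahnSeries.coeff_single_of_ne hn, mul_zero]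

/-- the structure map `K → L((w))` is the constant-series map -/
theorem algebraMap_eq_C {K : Type*} [Field K] [Algebra K L] (c : K) :
    algebraMap K (LaurentSeries L) c = HahnSeries.C (algebraMap K L c) := by
  rw [HahnSeries.algebraMap_apply', PowerSeries.algebraMap_apply, HahnSeries.ofPowerSeries_C]

theorem deriv_algebraMap (c : L) : deriv (algebraMap L (LaurentSeries L) c) = 0 := by
  rw [algebraMap_eq_C, deriv_C]

/-- in characteristic zero the derivative lowers a nonzero order by exactly one -/
theorem order_deriv [CharZero L] {f : LaurentSeries L} (hf : f.order ≠ 0) :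
    deriv f ≠ 0 ∧ (deriv f).order = f.order - 1 := by
  have hf0 : f ≠ 0 := by
    rintro rfl
    exact hf HahnSeries.order_zero
  have hc : (deriv f).coeff (f.order - 1) ≠ 0 := by
    rw [deriv_coeff, sub_add_cancel]
    refine mul_ne_zero ?_ ((fun h => hf0 (HahnSeries.coeff_order_eq_zero.mp h)))
    have : ((f.order - 1 : ℤ) : L) + 1 = ((f.order : ℤ) : L) := by push_cast; ring
    rw [this]
    exact Int.cast_ne_zero.mpr hf
  have hd0 : deriv f ≠ 0 := HahnSeries.ne_zero_of_coeff_ne_zero hc
  refine ⟨hd0, le_antisymm (HahnSeries.order_le_of_coeff_ne_zero hc) ?_⟩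
  rw [HahnSeries.le_order_iff_forall hd0]
  intro j hj
  rw [deriv_coeff, HahnSeries.coeff_eq_zero_of_lt_order (by omega), mul_zero]

theorem C_mul_eq_smul {K : Type*} [Field K] [Algebra K L] (c : K) (f : LaurentSeries L) :
    HahnSeries.C (algebraMap K L c) * f = c • f := by
  ext n
  rw [HahnSeries.C_apply, HahnSeries.coeff_single_zero_mul, HahnSeries.coeff_smul,
    Algebra.smul_def]

/-- `d/dw ∘ E` as a derivation, for a `K`-algebra embedding `E : F → L((w))`
(`L((w))` is an `F`-module through `E`). -/
noncomputable def derivation {K F : Type*} [Field K] [Field F] [Algebra K F] [Algebra K L]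
    (E : F →ₐ[K] LaurentSeries L) :
    letI : Module F (LaurentSeries L) := Module.compHom _ E.toRingHom
    Derivation K F (LaurentSeries L) :=
  letI : Module F (LaurentSeries L) := Module.compHom _ E.toRingHom
  { toFun := fun x => deriv (E x)
    map_add' := fun x y => by rw [map_add, deriv_add]
    map_smul' := fun c x => by
      show deriv (E (c • x)) = c • deriv (E x)
      rw [Algebra.smul_def, map_mul, AlgHom.commutes, algebraMap_eq_C, deriv_mul, deriv_C,
        zero_mul, add_zero, C_mul_eq_smul]
    map_one_eq_zero' := by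
      show deriv (E 1) = 0
      rw [map_one, ← map_one (algebraMap L (LaurentSeries L)), deriv_algebraMap]
    leibniz' := fun a b => by
      show deriv (E (a * b)) = E a * deriv (E b) + E b * deriv (E a)
      rw [map_mul, deriv_mul, mul_comm (deriv (E a))] }

theorem derivation_apply {K F : Type*} [Field K] [Field F] [Algebra K F] [Algebra K L]
    (E : F →ₐ[K] LaurentSeries L) (x : F) :
    letI : Module F (LaurentSeries L) := Module.compHom _ E.toRingHom
    derivation E x = deriv (E x) := rfl

end Fermat.Agent.X0S24.LaurentDeriv
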