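import Mathlib
import Fermat.Prelude.Def_AlgebraicCurve_CanonicalDivisor
import Fermat.Agent.X0S24.LaurentDeriv
import Fermat.Agent.X0S24.KaehlerSpan

/-!
# S24 layer (G5b): the order of a differential at a place, computed through a Laurent expansion

Generic; no modular input.
-/

set_option autoImplicit false

open scoped IntermediateField
open KaehlerDifferential

namespace Fermat.Agent.X0S24.OrdDiff

variable {K F : Type*} [Field K] [Field F] [Algebra K F]

/-- the (private) coordinate differential of a place is `dt` for some `t` of order one -/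
theorem exists_dCoord_eq (v : AlgebraicCurve.Place K F) :
    ∃ t : F, v.ord t = 1 ∧ v.dCoord = KaehlerDifferential.D K F t := by
  refine ⟨_, ?_, rfl⟩
  exact v.ord_coe_irreducible
    (IsDiscreteValuationRing.exists_irreducible v.toValuationSubring).choose_spec

/-- a relation `g • dy = f • dt` between differentials transfers through the expansion `E`
to the relation `E g * (E y)' = E f * (E t)'` between Laurent series. -/
theorem expansion_relation {L : Type*} [Field L] [Algebra K L]
    (E : F →ₐ[K] LaurentSeries L) {g f y t : F}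
    (h : g • KaehlerDifferential.D K F y = f • KaehlerDifferential.D K F t) :
    E g * LaurentDeriv.deriv (E y) = E f * LaurentDeriv.deriv (E t) := by
  have key : ∀ (k : K) (x : F) (m : LaurentSeries L), E (k • x) * m = k • (E x * m) := by
    intro k x m
    have h1 : algebraMap K (LaurentSeries L) k = HahnSeries.C (algebraMap K L k) := by
      rw [HahnSeries.algebraMap_apply', PowerSeries.algebraMap_apply,
        HahnSeries.ofPowerSeries_C]
    rw [Algebra.smul_def, map_mul, E.commutes, h1, mul_assoc, HahnSeries.C_mul_eq_smul]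
    ext n
    rw [HahnSeries.coeff_smul, HahnSeries.coeff_smul, smul_eq_mul, Algebra.smul_def]
  let _ : Module F (LaurentSeries L) := Module.compHom _ E.toRingHom
  have : IsScalarTower K F (LaurentSeries L) := ⟨fun k x m => key k x m⟩
  have h2 := KaehlerSpan.smul_derivation_eq (LaurentDeriv.derivation E) h
  rw [LaurentDeriv.derivation_apply, LaurentDeriv.derivation_apply] at h2
  exact h2

/-- **Order of a differential through an expansion.**  Let `v` be a place of `F/K`,
`E : F → L((w))` a `K`-algebra embedding into Laurent series over a field of characteristic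
zero with `a * order (E x) = b * v.ord x` (`a, b > 0`), and suppose `Ω[F⁄K] = F · dy`.
If `v.ord y ≠ 0` then `ord_v (g • dy) = v.ord g + v.ord y - 1`. -/
theorem ordDifferential_smul_D [CharZero K] {L : Type*} [Field L] [CharZero L] [Algebra K L]
    (v : AlgebraicCurve.Place K F) (E : F →ₐ[K] LaurentSeries L) (a b : ℕ) (ha : 0 < a)
    (hb : 0 < b)
    (hE : ∀ x : F, x ≠ 0 → (a : ℤ) * (E x).order = (b : ℤ) * v.ord x)
    (y : F) (hspan : Submodule.span F {KaehlerDifferential.D K F y} = (⊤ : Submodule F Ω[F⁄K]))
    (hy : v.ord y ≠ 0) (g : F) (hg : g ≠ 0) :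
    v.ordDifferential (g • KaehlerDifferential.D K F y) = v.ord g + v.ord y - 1 := by
  obtain ⟨t, ht1, htD⟩ := exists_dCoord_eq v
  have haZ : (0 : ℤ) < a := by exact_mod_cast ha
  have hbZ : (0 : ℤ) < b := by exact_mod_cast hb
  have hEne : ∀ x : F, x ≠ 0 → E x ≠ 0 := fun x hx => by
    rwa [Ne, map_eq_zero_iff E E.toRingHom.injective]
  -- nonvanishing of orders
  have ht0 : t ≠ 0 := by
    rintro rfl
    rw [v.ord_zero] at ht1
    exact zero_ne_one ht1
  have hy0 : y ≠ 0 := by
    rintro rfl
    exact hy v.ord_zero
  have hordEt : (E t).order ≠ 0 := by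
    intro h0
    have := hE t ht0
    rw [h0, ht1] at this
    simp at this
    omega
  have hordEy : (E y).order ≠ 0 := by
    intro h0
    have := hE y hy0
    rw [h0, mul_zero] at this
    rcases mul_eq_zero.mp this.symm with h | h
    · omega
    · exact hy h
  obtain ⟨hdt_ne, hdt_ord⟩ := LaurentDeriv.order_deriv hordEt
  obtain ⟨hdy_ne, hdy_ord⟩ := LaurentDeriv.order_deriv hordEy
  -- `dt = c • dy`
  have hmem : KaehlerDifferential.D K F t ∈ Submodule.span F {KaehlerDifferential.D K F y} := by
    rw [hspan]; exact Submodule.mem_top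
  obtain ⟨c, hc⟩ := Submodule.mem_span_singleton.mp hmem
  have hc' : c • KaehlerDifferential.D K F y = (1 : F) • KaehlerDifferential.D K F t := by
    rw [one_smul, hc]
  have hrel1 := expansion_relation E hc'
  have hc0 : c ≠ 0 := by
    rintro rfl
    rw [map_zero, zero_mul, map_one, one_mul] at hrel1
    exact hdt_ne hrel1.symm
  have hDy : KaehlerDifferential.D K F y = c⁻¹ • KaehlerDifferential.D K F t := by
    rw [← hc, smul_smul, inv_mul_cancel₀ hc0, one_smul]
  have hex : ∃ f : F, g • KaehlerDifferential.D K F y = f • v.dCoord :=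
    ⟨g * c⁻¹, by rw [htD, mul_smul, ← hDy]⟩
  have hcoeff : v.differentialCoeff (g • KaehlerDifferential.D K F y) = hex.choose := by
    unfold AlgebraicCurve.Place.differentialCoeff
    exact dif_pos hex
  have hspec := hex.choose_spec
  set f := hex.choose with hf
  rw [htD] at hspec
  have hrel2 := expansion_relation E hspec
  have hf0 : f ≠ 0 := by
    intro h0
    rw [h0, map_zero, zero_mul] at hrel2
    exact mul_ne_zero (hEne g hg) hdy_ne hrel2
  have hord := congrArg HahnSeries.order hrel2
  rw [HahnSeries.order_mul (hEne g hg) hdy_ne, HahnSeries.order_mul (hEne f hf0) hdt_ne,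
    hdy_ord, hdt_ord] at hord
  have h1 := hE g hg
  have h2 := hE y hy0
  have h3 := hE f hf0
  have h4 := hE t ht0
  rw [ht1] at h4
  unfold AlgebraicCurve.Place.ordDifferential
  rw [hcoeff]
  have key : (b : ℤ) * v.ord f = (b : ℤ) * (v.ord g + v.ord y - 1) := by
    have : (a : ℤ) * ((E g).order + ((E y).order - 1)) =
        (a : ℤ) * ((E f).order + ((E t).order - 1)) := by rw [hord]
    linarith
  exact mul_left_cancel₀ hbZ.ne' key

end Fermat.Agent.X0S24.OrdDiff
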