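import Mathlib
import Fermat.Prelude.Def_AlgebraicCurve_DivisorClassGroup

/-!
# S24 layer (G2): the residue field of a place of a function field of one variable over an
algebraically closed field is the base field

Generic; no modular input.
-/

set_option autoImplicit false

open scoped IntermediateField

namespace Fermat.Agent.X0S24.PlaceRes

variable {K F : Type*} [Field K] [Field F] [Algebra K F]

/-- membership in the valuation ring in terms of `ord` -/
theorem mem_iff_ord_nonneg (v : AlgebraicCurve.Place K F) {x : F} (hx : x ≠ 0) :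
    x ∈ v.toValuationSubring ↔ 0 ≤ v.ord x := by
  obtain ⟨π, hπ⟩ := IsDiscreteValuationRing.exists_irreducible v.toValuationSubring
  obtain ⟨u, hu⟩ := v.exists_unit_mul_zpow hx hπ
  -- nonnegative powers of `π` times a unit lie in the ring
  have key : ∀ (w : v.toValuationSubringˣ) (n : ℤ), 0 ≤ n →
      ((w : v.toValuationSubring) : F) * ((π : F) ^ n) ∈ v.toValuationSubring := by
    intro w n hn
    obtain ⟨m, rfl⟩ := Int.eq_ofNat_of_zero_le hn
    rw [zpow_natCast]
    exact mul_mem (w : v.toValuationSubring).2 (pow_mem π.2 m)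
  constructor
  · intro hxm
    by_contra hneg
    have hneg' : v.ord x < 0 := not_le.mp hneg
    -- then `x⁻¹` lies in the ring as well, so `x` is a unit
    have hinv : x⁻¹ ∈ v.toValuationSubring := by
      have h1 : x⁻¹ = (((u⁻¹ : v.toValuationSubringˣ) : v.toValuationSubring) : F)
          * ((π : F) ^ (-(v.ord x))) := by
        have hπF : (π : F) ≠ 0 := by
          simpa [ne_eq, ZeroMemClass.coe_eq_zero] using hπ.ne_zero
        have huF : ((u : v.toValuationSubring) : F) ≠ 0 := by
          simp [ne_eq, ZeroMemClass.coe_eq_zero]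
        have huinv : (((u⁻¹ : v.toValuationSubringˣ) : v.toValuationSubring) : F)
            * ((u : v.toValuationSubring) : F) = 1 := by
          exact congrArg (Subtype.val) (Units.inv_mul u)
        conv_lhs => rw [hu]
        rw [mul_inv, zpow_neg]
        congr 1
        exact (eq_inv_of_mul_eq_one_left huinv).symm
      rw [h1]
      exact key _ _ (by omega)
    have hunit : IsUnit (⟨x, hxm⟩ : v.toValuationSubring) := by
      refine IsUnit.of_mul_eq_one (⟨x⁻¹, hinv⟩ : v.toValuationSubring) ?_
      ext
      simp [mul_inv_cancel₀ hx]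
    have h0 := v.ord_coe_unit hunit.unit
    rw [IsUnit.unit_spec] at h0
    simp only at h0
    omega
  · intro h
    rw [hu]
    exact key u _ h

theorem adicValuation_le_iff (v : AlgebraicCurve.Place K F) {x y : F} (hx : x ≠ 0) (hy : y ≠ 0) :
    v.adicValuation x ≤ v.adicValuation y ↔ v.ord y ≤ v.ord x := by
  unfold AlgebraicCurve.Place.ord
  rw [neg_le_neg_iff, WithZero.log_le_log (v.adicValuation_ne_zero hx) (v.adicValuation_ne_zero hy)]

/-- the ultrametric inequality for `Place.ord` -/
theorem ord_add (v : AlgebraicCurve.Place K F) {x y : F} (hx : x ≠ 0) (hy : y ≠ 0)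
    (hxy : x + y ≠ 0) : min (v.ord x) (v.ord y) ≤ v.ord (x + y) := by
  rcases le_max_iff.mp (Valuation.map_add v.adicValuation x y) with h | h
  · exact (min_le_left _ _).trans ((adicValuation_le_iff v hxy hx).mp h)
  · exact (min_le_right _ _).trans ((adicValuation_le_iff v hxy hy).mp h)

/-- nonzero constants have order zero -/
theorem ord_algebraMap (v : AlgebraicCurve.Place K F) {c : K} (hc : c ≠ 0) :
    v.ord (algebraMap K F c) = 0 := by
  have hunit : IsUnit (algebraMap K v.toValuationSubring c) := (IsUnit.mk0 c hc).map _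
  have h0 := v.ord_coe_unit hunit.unit
  rwa [IsUnit.unit_spec, v.coe_algebraMap] at h0

/-- there is an element of order one -/
theorem exists_ord_eq_one (v : AlgebraicCurve.Place K F) : ∃ t : F, t ≠ 0 ∧ v.ord t = 1 := by
  obtain ⟨π, hπ⟩ := IsDiscreteValuationRing.exists_irreducible v.toValuationSubring
  refine ⟨(π : F), ?_, v.ord_coe_irreducible hπ⟩
  simpa [ne_eq, ZeroMemClass.coe_eq_zero] using hπ.ne_zero

/-- if all `x - c` have order `0`, all nonzero polynomials in `x` have order `0` -/
theorem aeval_ne_zero_and_ord [IsAlgClosed K] (v : AlgebraicCurve.Place K F) {x : F}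
    (hxc : ∀ c : K, x - algebraMap K F c ≠ 0 ∧ v.ord (x - algebraMap K F c) = 0)
    (p : Polynomial K) (hp : p ≠ 0) :
    Polynomial.aeval x p ≠ 0 ∧ v.ord (Polynomial.aeval x p) = 0 := by
  have hsplit := (IsAlgClosed.splits p).eq_prod_roots
  have hlc : p.leadingCoeff ≠ 0 := Polynomial.leadingCoeff_ne_zero.mpr hp
  have hprod : ∀ s : Multiset K,
      Polynomial.aeval x (s.map fun a => Polynomial.X - Polynomial.C a).prod ≠ 0 ∧
        v.ord (Polynomial.aeval x (s.map fun a => Polynomial.X - Polynomial.C a).prod) = 0 := by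
    intro s
    induction s using Multiset.induction_on with
    | empty => simp
    | cons a s ih =>
      rw [Multiset.map_cons, Multiset.prod_cons, map_mul]
      have ha : Polynomial.aeval x (Polynomial.X - Polynomial.C a) = x - algebraMap K F a := by
        simp
      rw [ha]
      refine ⟨mul_ne_zero (hxc a).1 ih.1, ?_⟩
      rw [v.ord_mul (hxc a).1 ih.1, (hxc a).2, ih.2, add_zero]
  rw [hsplit, map_mul, Polynomial.aeval_C]
  have hc0 : algebraMap K F p.leadingCoeff ≠ 0 := by
    simpa using hlc
  refine ⟨mul_ne_zero hc0 (hprod _).1, ?_⟩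
  rw [v.ord_mul hc0 (hprod _).1, ord_algebraMap v hlc, (hprod _).2, add_zero]

/-- **Residue field is `K`.**  `halg`: `F` is algebraic over `K(u)` for every non-constant `u`
(function field of one variable). -/
theorem exists_residue [IsAlgClosed K]
    (halg : ∀ u : F, (∀ c : K, u ≠ algebraMap K F c) → Algebra.IsAlgebraic K⟮u⟯ F)
    (v : AlgebraicCurve.Place K F) {x : F} (hx : x ≠ 0) (h0 : 0 ≤ v.ord x) :
    ∃ c : K, x = algebraMap K F c ∨ 0 < v.ord (x - algebraMap K F c) := by
  by_contra hcon
  have hcon' : ∀ c : K, x ≠ algebraMap K F c ∧ ¬ 0 < v.ord (x - algebraMap K F c) := by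
    intro c
    constructor
    · intro h; exact hcon ⟨c, Or.inl h⟩
    · intro h; exact hcon ⟨c, Or.inr h⟩
  have hxm : x ∈ v.toValuationSubring := (mem_iff_ord_nonneg v hx).mpr h0
  have hxc : ∀ c : K, x - algebraMap K F c ≠ 0 ∧ v.ord (x - algebraMap K F c) = 0 := by
    intro c
    have hne : x - algebraMap K F c ≠ 0 := sub_ne_zero.mpr (hcon' c).1
    refine ⟨hne, ?_⟩
    have hmem : x - algebraMap K F c ∈ v.toValuationSubring :=
      sub_mem hxm (v.algebraMap_mem' c)
    have h1 := (mem_iff_ord_nonneg v hne).mp hmem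
    have h2 := (hcon' c).2
    omega
  -- `K⟮x⟯` is contained in the valuation ring
  have hsub : ∀ a : F, a ∈ K⟮x⟯ → a ∈ v.toValuationSubring := by
    intro a ha
    obtain ⟨r, s, rfl⟩ := (IntermediateField.mem_adjoin_simple_iff K a).mp ha
    by_cases hr : r = 0
    · simp [hr, zero_mem]
    by_cases hs : s = 0
    · simp [hs, zero_mem]
    obtain ⟨hr0, hr1⟩ := aeval_ne_zero_and_ord v hxc r hr
    obtain ⟨hs0, hs1⟩ := aeval_ne_zero_and_ord v hxc s hs
    rw [mem_iff_ord_nonneg v (div_ne_zero hr0 hs0), div_eq_mul_inv,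
      v.ord_mul hr0 (inv_ne_zero hs0), v.ord_inv, hr1, hs1]
    simp
  -- every element of `F` is integral over the valuation ring, hence in it
  have hall : ∀ y : F, y ∈ v.toValuationSubring := by
    intro y
    have := halg x (fun c => (hcon' c).1)
    have hy : IsIntegral K⟮x⟯ y := (Algebra.IsAlgebraic.isAlgebraic (R := K⟮x⟯) y).isIntegral
    obtain ⟨p, hpm, hpy⟩ := hy
    let incl : K⟮x⟯ →+* v.toValuationSubring :=
      { toFun := fun a => ⟨(a : F), hsub a a.2⟩
        map_one' := rfl
        map_mul' := fun _ _ => rfl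
        map_zero' := rfl
        map_add' := fun _ _ => rfl }
    have hcomp : (algebraMap v.toValuationSubring F).comp incl = algebraMap K⟮x⟯ F := rfl
    have hint : IsIntegral v.toValuationSubring y := by
      refine ⟨p.map incl, hpm.map _, ?_⟩
      rw [Polynomial.eval₂_map, hcomp]
      exact hpy
    obtain ⟨z, hz⟩ := IsIntegrallyClosed.isIntegral_iff.mp hint
    rw [← hz]
    exact z.2
  exact v.ne_top' (SetLike.ext fun y => ⟨fun _ => ValuationSubring.mem_top y, fun _ => hall y⟩)

/-- every place has degree one -/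
theorem deg_eq_one [IsAlgClosed K]
    (halg : ∀ u : F, (∀ c : K, u ≠ algebraMap K F c) → Algebra.IsAlgebraic K⟮u⟯ F)
    (v : AlgebraicCurve.Place K F) : v.deg = 1 := by
  unfold AlgebraicCurve.Place.deg
  rw [finrank_eq_one_iff']
  refine ⟨1, one_ne_zero, fun w => ?_⟩
  obtain ⟨a, rfl⟩ := IsLocalRing.residue_surjective w
  -- find a constant congruent to `a`
  have hex : ∃ c : K, a - algebraMap K v.toValuationSubring c
      ∈ IsLocalRing.maximalIdeal v.toValuationSubring := by
    by_cases ha : (a : F) = 0
    · refine ⟨0, ?_⟩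
      have : a = 0 := by ext; simpa using ha
      simp [this]
    · obtain ⟨c, hc⟩ := exists_residue halg v ha ((mem_iff_ord_nonneg v ha).mp a.2)
      refine ⟨c, ?_⟩
      rcases hc with hc | hc
      · have : a - algebraMap K v.toValuationSubring c = 0 := by
          ext
          simp [hc]
        rw [this]
        exact zero_mem _
      · rw [IsLocalRing.mem_maximalIdeal, mem_nonunits_iff]
        intro hunit
        have h0 := v.ord_coe_unit hunit.unit
        rw [IsUnit.unit_spec] at h0
        have hcoe : ((a - algebraMap K v.toValuationSubring c : v.toValuationSubring) : F)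
            = (a : F) - algebraMap K F c := rfl
        rw [hcoe] at h0
        omega
  obtain ⟨c, hc⟩ := hex
  refine ⟨c, ?_⟩
  rw [Algebra.smul_def, mul_one]
  have h1 : IsLocalRing.residue v.toValuationSubring (a - algebraMap K v.toValuationSubring c)
      = 0 := (IsLocalRing.residue_eq_zero_iff _).mpr hc
  rw [map_sub, sub_eq_zero] at h1
  rw [h1]
  rfl

end Fermat.Agent.X0S24.PlaceRes
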