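import Mathlib
import Fermat.Agent.RR.Defs

/-!
# S24 layer (G1): basic lemmas on the valuations of a `PreCurve`
-/

set_option autoImplicit false

namespace Fermat.Agent.X0S24.PC

open Fermat.Agent.RRL

variable {K F X : Type*} [Field K] [Field F] [Algebra K F]

theorem ord_one (C : PreCurve K F X) (p : X) : C.ord p 1 = 0 := by
  have h := C.ord_algebraMap p (c := (1 : K)) one_ne_zero
  simpa using h

theorem ord_neg_one (C : PreCurve K F X) (p : X) : C.ord p (-1) = 0 := by
  have h := C.ord_algebraMap p (c := (-1 : K)) (by norm_num)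
  simpa using h

theorem ord_neg (C : PreCurve K F X) (p : X) {x : F} (hx : x ≠ 0) :
    C.ord p (-x) = C.ord p x := by
  have h := C.ord_mul p (x := (-1 : F)) (y := x) (by norm_num) hx
  rw [ord_neg_one, zero_add] at h
  rw [← h]
  congr 1
  ring

theorem ord_inv (C : PreCurve K F X) (p : X) {x : F} (hx : x ≠ 0) :
    C.ord p x⁻¹ = -C.ord p x := by
  have h := C.ord_mul p hx (inv_ne_zero hx)
  rw [mul_inv_cancel₀ hx, ord_one] at h
  linarith

theorem ord_div (C : PreCurve K F X) (p : X) {x y : F} (hx : x ≠ 0) (hy : y ≠ 0) :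
    C.ord p (x / y) = C.ord p x - C.ord p y := by
  rw [div_eq_mul_inv, C.ord_mul p hx (inv_ne_zero hy), ord_inv C p hy]
  ring

theorem ord_pow (C : PreCurve K F X) (p : X) {x : F} (hx : x ≠ 0) (n : ℕ) :
    C.ord p (x ^ n) = n * C.ord p x := by
  induction n with
  | zero => simp [ord_one]
  | succ n ih =>
    rw [pow_succ, C.ord_mul p (pow_ne_zero n hx) hx, ih]
    push_cast
    ring

theorem ord_zpow (C : PreCurve K F X) (p : X) {x : F} (hx : x ≠ 0) (n : ℤ) :
    C.ord p (x ^ n) = n * C.ord p x := by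
  cases n with
  | ofNat n =>
    simpa using ord_pow C p hx n
  | negSucc n =>
    rw [zpow_negSucc, ord_inv C p (pow_ne_zero _ hx), ord_pow C p hx]
    push_cast
    rw [Int.negSucc_eq]
    ring

theorem ord_const_mul (C : PreCurve K F X) (p : X) {c : K} (hc : c ≠ 0) {x : F} (hx : x ≠ 0) :
    C.ord p (algebraMap K F c * x) = C.ord p x := by
  have hc' : algebraMap K F c ≠ 0 := (map_ne_zero (algebraMap K F)).mpr hc
  rw [C.ord_mul p hc' hx, C.ord_algebraMap p hc, zero_add]

theorem ord_sub (C : PreCurve K F X) (p : X) {x y : F} (hx : x ≠ 0) (hy : y ≠ 0)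
    (hxy : x - y ≠ 0) : min (C.ord p x) (C.ord p y) ≤ C.ord p (x - y) := by
  have hy' : -y ≠ 0 := neg_ne_zero.mpr hy
  have h := C.ord_add p hx hy' (by rwa [← sub_eq_add_neg])
  rw [ord_neg C p hy, ← sub_eq_add_neg] at h
  exact h

/-- the ultrametric equality -/
theorem ord_add_eq_of_lt (C : PreCurve K F X) (p : X) {x y : F} (hx : x ≠ 0) (hy : y ≠ 0)
    (h : C.ord p x < C.ord p y) : C.ord p (x + y) = C.ord p x := by
  have hxy : x + y ≠ 0 := by
    intro h0
    have : x = -y := eq_neg_of_add_eq_zero_left h0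
    rw [this, ord_neg C p hy] at h
    exact lt_irrefl _ h
  apply le_antisymm
  · by_contra hcon
    have hcon' : C.ord p x < C.ord p (x + y) := not_le.mp hcon
    have h2 := ord_sub C p hxy hy (by simpa using hx)
    rw [add_sub_cancel_right] at h2
    have h3 : C.ord p x < min (C.ord p (x + y)) (C.ord p y) := lt_min hcon' h
    exact lt_irrefl _ (lt_of_lt_of_le h3 h2)
  · have h2 := C.ord_add p hx hy hxy
    rwa [min_eq_left h.le] at h2

/-- a sum of two elements of distinct orders is nonzero -/
theorem add_ne_zero_of_ord_ne (C : PreCurve K F X) (p : X) {x y : F} (_hx : x ≠ 0) (hy : y ≠ 0)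
    (h : C.ord p x ≠ C.ord p y) : x + y ≠ 0 := by
  intro h0
  have : x = -y := eq_neg_of_add_eq_zero_left h0
  rw [this, ord_neg C p hy] at h
  exact h rfl

/-- `x - c` has the same (negative) order as `x` at a pole of `x`. -/
theorem ord_sub_const_of_neg (C : PreCurve K F X) (p : X) {x : F} (hx : x ≠ 0)
    (h : C.ord p x < 0) (c : K) : C.ord p (x - algebraMap K F c) = C.ord p x := by
  by_cases hc : c = 0
  · simp [hc]
  have hc' : algebraMap K F c ≠ 0 := (map_ne_zero (algebraMap K F)).mpr hc
  have hc'' : -algebraMap K F c ≠ 0 := neg_ne_zero.mpr hc'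
  rw [sub_eq_add_neg]
  apply ord_add_eq_of_lt C p hx hc''
  rw [ord_neg C p hc', C.ord_algebraMap p hc]
  exact h

/-- a nonconstant function that is regular at `p` and not congruent to `c` has `ord (x - c) = 0`
whenever some other constant `c'` has `ord (x - c') > 0`. -/
theorem ord_sub_const_eq_zero (C : PreCurve K F X) (p : X) {x : F} {c c' : K} (hcc : c ≠ c')
    (hxc' : x - algebraMap K F c' ≠ 0) (h : 0 < C.ord p (x - algebraMap K F c')) :
    C.ord p (x - algebraMap K F c) = 0 := by
  have hd : c' - c ≠ 0 := sub_ne_zero.mpr (Ne.symm hcc)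
  have hd' : algebraMap K F (c' - c) ≠ 0 :=
    (map_ne_zero (algebraMap K F)).mpr hd
  have e : x - algebraMap K F c = algebraMap K F (c' - c) + (x - algebraMap K F c') := by
    rw [map_sub]; ring
  rw [e, ord_add_eq_of_lt C p hd' hxc' (by rw [C.ord_algebraMap p hd]; exact h),
    C.ord_algebraMap p hd]

/-- uniqueness of the residue -/
theorem residue_unique (C : PreCurve K F X) (p : X) {x : F} {c c' : K}
    (h : x = algebraMap K F c ∨ 0 < C.ord p (x - algebraMap K F c))
    (h' : x = algebraMap K F c' ∨ 0 < C.ord p (x - algebraMap K F c')) : c = c' := by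
  by_contra hcc
  have hd : c' - c ≠ 0 := sub_ne_zero.mpr (Ne.symm hcc)
  have hd2 : c - c' ≠ 0 := sub_ne_zero.mpr hcc
  rcases h with h | h
  · rcases h' with h' | h'
    · rw [h] at h'
      exact hcc ((algebraMap K F).injective h')
    · rw [h, ← map_sub, C.ord_algebraMap p hd2] at h'
      exact lt_irrefl _ h'
  · rcases h' with h' | h'
    · rw [h', ← map_sub, C.ord_algebraMap p hd] at h
      exact lt_irrefl _ h
    · have hxc' : x - algebraMap K F c' ≠ 0 := by
        intro h0
        rw [sub_eq_zero] at h0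
        rw [h0, ← map_sub, C.ord_algebraMap p hd] at h
        exact lt_irrefl _ h
      have := ord_sub_const_eq_zero C p hcc hxc' h'
      omega

end Fermat.Agent.X0S24.PC
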