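import Mathlib
import Fermat.Agent.RR.Defs
import Fermat.Prelude.Def_AlgebraicCurve_DivisorClassGroup
import Fermat.Agent.X0S24.PreCurveBasic
import Fermat.Agent.X0S24.PlaceRes

/-!
# S24 layer (G3): the points of an abstract curve are exactly the (Prelude) places of its
function field

Generic; no modular input.
-/

set_option autoImplicit false

open scoped IntermediateField

namespace Fermat.Agent.X0S24.PlacePoint

open Fermat.Agent.RRL

variable {K F X : Type*} [Field K] [Field F] [Algebra K F]

/-- the valuation ring `{x | x = 0 ∨ 0 ≤ ord p x}` of a point. -/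
def vring (C : PreCurve K F X) (p : X) : ValuationSubring F where
  carrier := {x | x = 0 ∨ 0 ≤ C.ord p x}
  mul_mem' := by
    rintro x y hx hy
    by_cases hx0 : x = 0
    · left; simp [hx0]
    by_cases hy0 : y = 0
    · left; simp [hy0]
    right
    have hx' := hx.resolve_left hx0
    have hy' := hy.resolve_left hy0
    rw [C.ord_mul p hx0 hy0]
    omega
  one_mem' := Or.inr (by rw [PC.ord_one])
  add_mem' := by
    rintro x y hx hy
    by_cases hx0 : x = 0
    · simpa [hx0] using hy
    by_cases hy0 : y = 0
    · simpa [hy0] using hx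
    by_cases hxy : x + y = 0
    · exact Or.inl hxy
    right
    have hx' := hx.resolve_left hx0
    have hy' := hy.resolve_left hy0
    exact le_trans (le_min hx' hy') (C.ord_add p hx0 hy0 hxy)
  zero_mem' := Or.inl rfl
  neg_mem' := by
    rintro x hx
    by_cases hx0 : x = 0
    · left; simp [hx0]
    right
    rw [PC.ord_neg C p hx0]
    exact hx.resolve_left hx0
  mem_or_inv_mem' := by
    intro x
    by_cases hx0 : x = 0
    · exact Or.inl (Or.inl hx0)
    by_cases h : 0 ≤ C.ord p x
    · exact Or.inl (Or.inr h)
    · refine Or.inr (Or.inr ?_)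
      rw [PC.ord_inv C p hx0]
      omega

theorem mem_vring (C : PreCurve K F X) (p : X) (x : F) :
    x ∈ vring C p ↔ x = 0 ∨ 0 ≤ C.ord p x := Iff.rfl

theorem mem_vring_of_ne (C : PreCurve K F X) (p : X) {x : F} (hx : x ≠ 0) :
    x ∈ vring C p ↔ 0 ≤ C.ord p x := by
  rw [mem_vring]
  exact ⟨fun h => h.resolve_left hx, Or.inr⟩

theorem isPrincipalIdealRing_vring (C : PreCurve K F X) (p : X) :
    IsPrincipalIdealRing (vring C p) := by
  refine ⟨fun I => ?_⟩
  by_cases hI : I = ⊥
  · rw [hI]; exact bot_isPrincipal
  classical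
  have hex : ∃ n : ℕ, ∃ x : vring C p, x ∈ I ∧ x ≠ 0 ∧ C.ord p (x : F) = n := by
    obtain ⟨x, hxI, hx0⟩ := Submodule.exists_mem_ne_zero_of_ne_bot hI
    have hxF : (x : F) ≠ 0 := by
      intro h; exact hx0 (Subtype.ext h)
    have h0 : 0 ≤ C.ord p (x : F) := (mem_vring_of_ne C p hxF).mp x.2
    exact ⟨(C.ord p (x : F)).toNat, x, hxI, hx0, (Int.toNat_of_nonneg h0).symm⟩
  obtain ⟨x0, hx0I, hx00, hx0n⟩ := Nat.find_spec hex
  have hx0F : (x0 : F) ≠ 0 := by
    intro h; exact hx00 (Subtype.ext h)
  refine ⟨⟨x0, le_antisymm ?_ ?_⟩⟩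
  · intro y hyI
    change y ∈ Ideal.span {x0}
    rw [Ideal.mem_span_singleton']
    by_cases hy0 : y = 0
    · exact ⟨0, by rw [hy0, zero_mul]⟩
    have hyF : (y : F) ≠ 0 := by
      intro h; exact hy0 (Subtype.ext h)
    have h0 : 0 ≤ C.ord p (y : F) := (mem_vring_of_ne C p hyF).mp y.2
    have hmin : Nat.find hex ≤ (C.ord p (y : F)).toNat :=
      Nat.find_min' hex ⟨y, hyI, hy0, (Int.toNat_of_nonneg h0).symm⟩
    have hle : C.ord p (x0 : F) ≤ C.ord p (y : F) := by
      rw [hx0n]
      have := Int.toNat_of_nonneg h0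
      omega
    have hq : (y : F) / (x0 : F) ∈ vring C p := by
      rw [mem_vring_of_ne C p (div_ne_zero hyF hx0F), PC.ord_div C p hyF hx0F]
      omega
    refine ⟨⟨(y : F) / (x0 : F), hq⟩, ?_⟩
    apply Subtype.ext
    change (y : F) / (x0 : F) * (x0 : F) = (y : F)
    field_simp
  · change Ideal.span {x0} ≤ I
    rw [Ideal.span_singleton_le_iff_mem]
    exact hx0I

/-- the place attached to a point of a curve: the valuation ring `{x | x = 0 ∨ 0 ≤ ord p x}`. -/
noncomputable def place (C : Curve K F X) (p : X) : AlgebraicCurve.Place K F where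
  toValuationSubring := vring C.toPreCurve p
  algebraMap_mem' := by
    intro a
    by_cases ha : a = 0
    · left; simp [ha]
    · right; rw [C.ord_algebraMap p ha]
  ne_top' := by
    intro htop
    obtain ⟨t, ht0, ht1⟩ := C.exists_uniformizer p
    have hmem : t⁻¹ ∈ vring C.toPreCurve p := by
      rw [htop]; exact ValuationSubring.mem_top _
    rw [mem_vring_of_ne _ p (inv_ne_zero ht0), PC.ord_inv _ p ht0, ht1] at hmem
    omega
  isPrincipalIdealRing' := isPrincipalIdealRing_vring C.toPreCurve p

theorem mem_place_iff (C : Curve K F X) (p : X) (x : F) :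
    x ∈ (place C p).toValuationSubring ↔ x = 0 ∨ 0 ≤ C.ord p x := Iff.rfl

theorem mem_place_of_ne (C : Curve K F X) (p : X) {x : F} (hx : x ≠ 0) :
    x ∈ (place C p).toValuationSubring ↔ 0 ≤ C.ord p x :=
  mem_vring_of_ne C.toPreCurve p hx

/-- an element of order zero is a unit of the valuation ring. -/
theorem isUnit_of_ord_eq_zero (C : Curve K F X) (p : X) (a : (place C p).toValuationSubring)
    (ha0 : (a : F) ≠ 0) (ha : C.ord p (a : F) = 0) : IsUnit a := by
  have hinv : (a : F)⁻¹ ∈ (place C p).toValuationSubring := by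
    rw [mem_place_of_ne C p (inv_ne_zero ha0), PC.ord_inv _ p ha0, ha]
    simp
  refine IsUnit.of_mul_eq_one (⟨(a : F)⁻¹, hinv⟩ : (place C p).toValuationSubring) ?_
  apply Subtype.ext
  change (a : F) * (a : F)⁻¹ = 1
  exact mul_inv_cancel₀ ha0

/-- the normalized valuation of the place of `p` is `ord p`. -/
theorem place_ord (C : Curve K F X) (p : X) {x : F} (hx : x ≠ 0) :
    (place C p).ord x = C.ord p x := by
  obtain ⟨t, ht0, ht1⟩ := C.exists_uniformizer p
  have htm : t ∈ (place C p).toValuationSubring := by
    rw [mem_place_of_ne C p ht0, ht1]; norm_num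
  set π : (place C p).toValuationSubring := ⟨t, htm⟩ with hπdef
  have hπ : Irreducible π := by
    refine ⟨?_, ?_⟩
    · intro hu
      have h0 := (place C p).ord_coe_unit hu.unit
      rw [IsUnit.unit_spec] at h0
      -- `t⁻¹` would lie in the ring
      obtain ⟨b, hb⟩ := hu.exists_right_inv
      have hbF : t * (b : F) = 1 := congrArg Subtype.val hb
      have hb0 : (b : F) ≠ 0 := by
        intro h; rw [h, mul_zero] at hbF; exact zero_ne_one hbF
      have hbm := (mem_place_of_ne C p hb0).mp b.2
      have h1 := C.ord_mul p ht0 hb0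
      rw [hbF, PC.ord_one, ht1] at h1
      omega
    · intro a b hab
      have habF : t = (a : F) * (b : F) := congrArg Subtype.val hab
      have ha0 : (a : F) ≠ 0 := by
        intro h; rw [h, zero_mul] at habF; exact ht0 habF
      have hb0 : (b : F) ≠ 0 := by
        intro h; rw [h, mul_zero] at habF; exact ht0 habF
      have ham := (mem_place_of_ne C p ha0).mp a.2
      have hbm := (mem_place_of_ne C p hb0).mp b.2
      have h1 := C.ord_mul p ha0 hb0
      rw [← habF, ht1] at h1
      by_cases h : C.ord p (a : F) = 0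
      · exact Or.inl (isUnit_of_ord_eq_zero C p a ha0 h)
      · exact Or.inr (isUnit_of_ord_eq_zero C p b hb0 (by omega))
  set n : ℤ := C.ord p x with hn
  have hu0 : x * t ^ (-n) ≠ 0 := mul_ne_zero hx (zpow_ne_zero _ ht0)
  have huord : C.ord p (x * t ^ (-n)) = 0 := by
    rw [C.ord_mul p hx (zpow_ne_zero _ ht0), PC.ord_zpow _ p ht0, ht1]
    omega
  have hum : x * t ^ (-n) ∈ (place C p).toValuationSubring := by
    rw [mem_place_of_ne C p hu0, huord]
  have hunit : IsUnit (⟨x * t ^ (-n), hum⟩ : (place C p).toValuationSubring) :=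
    isUnit_of_ord_eq_zero C p _ hu0 huord
  have key := (place C p).ord_unit_smul_zpow hunit.unit hπ n
  rw [IsUnit.unit_spec] at key
  have e : x = x * t ^ (-n) * t ^ n := by
    rw [mul_assoc, ← zpow_add₀ ht0]
    simp
  rw [e]
  exact key

theorem place_injective (C : Curve K F X) : Function.Injective (place C) := by
  intro p q hpq
  by_contra hne
  obtain ⟨u, hu0, hup, huq⟩ := C.separated p q hne
  have h1 : u ∈ (place C p).toValuationSubring := (mem_place_of_ne C p hu0).mpr hup
  rw [hpq, mem_place_of_ne C q hu0] at h1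
  omega

/-- two distinct places have incomparable valuation rings. -/
theorem exists_mem_not_mem {v w : AlgebraicCurve.Place K F} (h : v ≠ w) :
    ∃ u : F, u ∈ v.toValuationSubring ∧ u ∉ w.toValuationSubring := by
  by_contra hcon
  have hsub : ∀ u : F, u ∈ v.toValuationSubring → u ∈ w.toValuationSubring := by
    intro u hu
    by_contra hu'
    exact hcon ⟨u, hu, hu'⟩
  have hex : ∃ x : F, x ∈ w.toValuationSubring ∧ x ∉ v.toValuationSubring := by
    by_contra hcon2
    apply h
    apply AlgebraicCurve.Place.ext
    apply SetLike.ext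
    intro x
    refine ⟨hsub x, fun hx => ?_⟩
    by_contra hx'
    exact hcon2 ⟨x, hx, hx'⟩
  obtain ⟨x, hxw, hxv⟩ := hex
  have hx0 : x ≠ 0 := by
    intro h0; rw [h0] at hxv; exact hxv (zero_mem _)
  have hxneg : v.ord x < 0 := by
    have := (PlaceRes.mem_iff_ord_nonneg v hx0).not.mp hxv
    omega
  apply w.ne_top'
  apply SetLike.ext
  intro y
  refine ⟨fun _ => ValuationSubring.mem_top y, fun _ => ?_⟩
  by_cases hy0 : y = 0
  · rw [hy0]; exact zero_mem _
  set m : ℕ := (-(v.ord y)).toNat with hm
  have hxm0 : (x⁻¹) ^ m ≠ 0 := pow_ne_zero _ (inv_ne_zero hx0)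
  have hz0 : y * (x⁻¹) ^ m ≠ 0 := mul_ne_zero hy0 hxm0
  have hzv : y * (x⁻¹) ^ m ∈ v.toValuationSubring := by
    rw [PlaceRes.mem_iff_ord_nonneg v hz0, v.ord_mul hy0 hxm0, ← zpow_natCast, v.ord_zpow,
      v.ord_inv]
    have hm' : -(v.ord y) ≤ (m : ℤ) := by
      rw [hm]; exact Int.self_le_toNat _
    have hm0 : (0 : ℤ) ≤ (m : ℤ) := Int.natCast_nonneg m
    nlinarith
  have hzw := hsub _ hzv
  have e : y = y * (x⁻¹) ^ m * x ^ m := by
    rw [mul_assoc, ← mul_pow, inv_mul_cancel₀ hx0, one_pow, mul_one]
  rw [e]
  exact mul_mem hzw (pow_mem hxw m)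

theorem finsum_option_int (f : Option X → ℤ)
    (hf : (Function.support fun p : X => f (some p)).Finite) :
    ∑ᶠ q : Option X, f q = f none + ∑ᶠ p : X, f (some p) := by
  classical
  have hsub : Function.support f ⊆
      ((insert none (hf.toFinset.map Function.Embedding.some) : Finset (Option X)) :
        Set (Option X)) := by
    intro q hq
    cases q with
    | none => simp
    | some p =>
      simp only [Finset.coe_insert, Finset.coe_map, Function.Embedding.some_apply,
        Set.mem_insert_iff, reduceCtorEq, Set.mem_image, Finset.mem_coe,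
        Set.Finite.mem_toFinset, Function.mem_support, Option.some.injEq, exists_eq_right,
        false_or]
      exact hq
  rw [finsum_eq_sum_of_support_subset f hsub, Finset.sum_insert (by simp), Finset.sum_map,
    finsum_eq_sum_of_support_subset (fun p : X => f (some p)) (s := hf.toFinset) (by simp)]
  rfl

/-- the curve obtained by adding a place which is not a point. -/
noncomputable def addPlace [IsAlgClosed K] (C : Curve K F X)
    (halg : ∀ u : F, (∀ c : K, u ≠ algebraMap K F c) → Algebra.IsAlgebraic K⟮u⟯ F)
    (v : AlgebraicCurve.Place K F) (hv : ∀ p : X, place C p ≠ v) : Curve K F (Option X) where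
  ord := fun q x => Option.elim q (v.ord x) (fun p => C.ord p x)
  ord_mul := by
    intro q x y hx hy
    cases q with
    | none => exact v.ord_mul hx hy
    | some p => exact C.ord_mul p hx hy
  ord_add := by
    intro q x y hx hy hxy
    cases q with
    | none => exact PlaceRes.ord_add v hx hy hxy
    | some p => exact C.ord_add p hx hy hxy
  ord_algebraMap := by
    intro q c hc
    cases q with
    | none => exact PlaceRes.ord_algebraMap v hc
    | some p => exact C.ord_algebraMap p hc
  exists_residue := by
    intro q x hx h0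
    cases q with
    | none => exact PlaceRes.exists_residue halg v hx h0
    | some p => exact C.exists_residue p hx h0
  finite_support := by
    intro x hx
    refine ((C.finite_support hx).image some |>.insert none).subset ?_
    intro q hq
    cases q with
    | none => exact Set.mem_insert _ _
    | some p => exact Set.mem_insert_of_mem _ ⟨p, hq, rfl⟩
  const_of_nonneg := by
    intro x hx h
    exact C.const_of_nonneg hx fun p => h (some p)
  exists_uniformizer := by
    intro q
    cases q with
    | none => exact PlaceRes.exists_ord_eq_one v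
    | some p => exact C.exists_uniformizer p
  separated := by
    intro q q' hne
    cases q with
    | none =>
      cases q' with
      | none => exact absurd rfl hne
      | some p =>
        obtain ⟨u, huv, hup⟩ := exists_mem_not_mem (hv p).symm
        have hu0 : u ≠ 0 := by
          intro h0; rw [h0] at hup; exact hup (zero_mem _)
        refine ⟨u, hu0, (PlaceRes.mem_iff_ord_nonneg v hu0).mp huv, ?_⟩
        have := (mem_place_of_ne C p hu0).not.mp hup
        exact not_le.mp this
    | some p =>
      cases q' with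
      | none =>
        obtain ⟨u, hup, huv⟩ := exists_mem_not_mem (hv p)
        have hu0 : u ≠ 0 := by
          intro h0; rw [h0] at huv; exact huv (zero_mem _)
        refine ⟨u, hu0, (mem_place_of_ne C p hu0).mp hup, ?_⟩
        have := (PlaceRes.mem_iff_ord_nonneg v hu0).not.mp huv
        exact not_le.mp this
      | some p' =>
        exact C.separated p p' (fun h => hne (congrArg some h))

/-- **Every place is a point.**  `hsum0`, `hsum`: principal divisors have degree zero, for `C`
and for every curve on `Option X` with the same function field (supplied by the Riemann–Roch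
package); `halg`: `F` is algebraic over `K(u)` for non-constant `u`. -/
theorem place_surjective [IsAlgClosed K] (C : Curve K F X)
    (hsum0 : ∀ x : F, x ≠ 0 → ∑ᶠ q : X, C.ord q x = 0)
    (hsum : ∀ (C' : Curve K F (Option X)) (x : F), x ≠ 0 → ∑ᶠ q : Option X, C'.ord q x = 0)
    (halg : ∀ u : F, (∀ c : K, u ≠ algebraMap K F c) → Algebra.IsAlgebraic K⟮u⟯ F) :
    Function.Surjective (place C) := by
  intro v
  by_contra hcon
  have hv : ∀ p : X, place C p ≠ v := fun p hp => hcon ⟨p, hp⟩
  obtain ⟨t, ht0, ht1⟩ := PlaceRes.exists_ord_eq_one v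
  have h1 := hsum (addPlace C halg v hv) t ht0
  have h2 := finsum_option_int (fun q => (addPlace C halg v hv).ord q t)
    (C.finite_support ht0)
  rw [h1] at h2
  have h3 : ∑ᶠ p : X, (addPlace C halg v hv).ord (some p) t = ∑ᶠ p : X, C.ord p t := rfl
  have h4 : (addPlace C halg v hv).ord none t = v.ord t := rfl
  rw [h3, hsum0 t ht0, h4, ht1] at h2
  omega

/-- the bijection between points and places -/
noncomputable def placeEquiv [IsAlgClosed K] (C : Curve K F X)
    (hsum0 : ∀ x : F, x ≠ 0 → ∑ᶠ q : X, C.ord q x = 0)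
    (hsum : ∀ (C' : Curve K F (Option X)) (x : F), x ≠ 0 → ∑ᶠ q : Option X, C'.ord q x = 0)
    (halg : ∀ u : F, (∀ c : K, u ≠ algebraMap K F c) → Algebra.IsAlgebraic K⟮u⟯ F) :
    X ≃ AlgebraicCurve.Place K F :=
  Equiv.ofBijective (place C) ⟨place_injective C, place_surjective C hsum0 hsum halg⟩

end Fermat.Agent.X0S24.PlacePoint
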