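import Mathlib
import Fermat.Agent.RR.Defs
import Fermat.Prelude.Def_AlgebraicCurve_CanonicalDivisor
import Fermat.Agent.X0S24.PreCurveBasic
import Fermat.Agent.X0S24.PlaceRes
import Fermat.Agent.X0S24.PlacePoint
import Fermat.Agent.X0S24.KaehlerSpan
import Fermat.Agent.X0S24.OrdDiff

/-!
# S24 layer (G6): the degree of a canonical divisor of an abstract curve with expansions

Generic; no modular input.
-/

set_option autoImplicit false

open scoped IntermediateField
open KaehlerDifferential

namespace Fermat.Agent.X0S24.Degree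

open Fermat.Agent.RRL

variable {K F X : Type*} [Field K] [Field F] [Algebra K F]

/-- a finitely supported function sums (as a `finsum`) to its `Finsupp.sum` -/
theorem finsum_eq_finsupp_sum {ι : Type*} (f : ι →₀ ℤ) :
    ∑ᶠ i, f i = f.sum fun _ n => n := by
  rw [Finsupp.sum]
  exact finsum_eq_sum_of_support_subset _ (by rw [Finsupp.fun_support_eq])

/-- the degree of a divisor all of whose places have degree one -/
theorem degree_eq_finsum (D : AlgebraicCurve.Divisor K F)
    (hdeg : ∀ v : AlgebraicCurve.Place K F, v.deg = 1) :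
    AlgebraicCurve.Divisor.degree D = ∑ᶠ v, D v := by
  rw [finsum_eq_finsupp_sum]
  unfold AlgebraicCurve.Divisor.degree
  rw [Finsupp.liftAddHom_apply]
  refine Finsupp.sum_congr fun v _ => ?_
  simp [hdeg v]

/-- multiplication by a constant in `L((w))` is the coefficientwise scalar action (the two
`K`-module structures on Laurent series agree) -/
theorem algebraMap_mul_eq_smul {L : Type*} [Field L] [Algebra K L] (c : K)
    (y : LaurentSeries L) : algebraMap K (LaurentSeries L) c * y = c • y := by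
  rw [HahnSeries.algebraMap_apply', PowerSeries.algebraMap_apply, HahnSeries.ofPowerSeries_C,
    HahnSeries.C_mul_eq_smul]
  ext n
  rw [HahnSeries.coeff_smul, HahnSeries.coeff_smul, Algebra.smul_def (R := K), smul_eq_mul]

/-- there is a nonzero differential -/
theorem exists_differential_ne_zero [CharZero K] (C : Curve K F X) [Nonempty X]
    {L : Type*} [Field L] [CharZero L] [Algebra K L]
    (hE : ∀ p : X, ∃ (E : F →ₐ[K] LaurentSeries L) (a b : ℕ), 0 < a ∧ 0 < b ∧
        ∀ x : F, x ≠ 0 → (a : ℤ) * (E x).order = (b : ℤ) * C.ord p x) :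
    ∃ ω : Ω[F⁄K], ω ≠ 0 := by
  obtain ⟨p⟩ := ‹Nonempty X›
  obtain ⟨t, ht0, ht⟩ := C.exists_uniformizer p
  obtain ⟨E, a, b, ha, hb, hE⟩ := hE p
  have hord : (E t).order ≠ 0 := by
    intro h0
    have h := hE t ht0
    rw [h0, ht, mul_zero, mul_one] at h
    have hb' : (b : ℤ) ≠ 0 := by exact_mod_cast hb.ne'
    exact hb' h.symm
  let _ : Module F (LaurentSeries L) := Module.compHom _ E.toRingHom
  have : IsScalarTower K F (LaurentSeries L) := by
    refine ⟨fun c x m => ?_⟩
    change E (c • x) * m = c • (E x * m)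
    rw [Algebra.smul_def, map_mul, E.commutes, mul_assoc, algebraMap_mul_eq_smul]
  refine ⟨D K F t, KaehlerSpan.D_ne_zero_of_derivation (LaurentDeriv.derivation E) t ?_⟩
  rw [LaurentDeriv.derivation_apply]
  exact (LaurentDeriv.order_deriv hord).1

/-- the order of `g • dj` at the place of a point `p` -/
theorem ordDifferential_place [IsAlgClosed K] [CharZero K] (C : Curve K F X)
    (j : F) (hj : ∀ c : K, j ≠ algebraMap K F c)
    (hspan : Submodule.span F {D K F j} = (⊤ : Submodule F Ω[F⁄K]))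
    {L : Type*} [Field L] [CharZero L] [Algebra K L]
    (hE : ∀ p : X, ∃ (E : F →ₐ[K] LaurentSeries L) (a b : ℕ), 0 < a ∧ 0 < b ∧
        ∀ x : F, x ≠ 0 → (a : ℤ) * (E x).order = (b : ℤ) * C.ord p x)
    (W : X →₀ ℤ)
    (hWfin : ∀ (p : X) (c : K), 0 < C.ord p (j - algebraMap K F c) →
        W p = C.ord p (j - algebraMap K F c) - 1)
    (hWinf : ∀ p : X, C.ord p j < 0 → W p = C.ord p j - 1)
    (g : F) (hg : g ≠ 0) (p : X) :
    (PlacePoint.place C p).ordDifferential (g • D K F j) = C.ord p g + W p := by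
  obtain ⟨E, a, b, ha, hb, hE⟩ := hE p
  have hj0 : j ≠ 0 := fun h => hj 0 (by rw [h, map_zero])
  have hE' : ∀ x : F, x ≠ 0 →
      (a : ℤ) * (E x).order = (b : ℤ) * (PlacePoint.place C p).ord x := by
    intro x hx
    rw [PlacePoint.place_ord C p hx]
    exact hE x hx
  rcases lt_or_ge (C.ord p j) 0 with hneg | hnn
  · have hy : (PlacePoint.place C p).ord j ≠ 0 := by
      rw [PlacePoint.place_ord C p hj0]
      exact hneg.ne
    rw [OrdDiff.ordDifferential_smul_D (PlacePoint.place C p) E a b ha hb hE' j hspan hy g hg,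
      PlacePoint.place_ord C p hg, PlacePoint.place_ord C p hj0, hWinf p hneg]
    ring
  · obtain ⟨c, hc | hc⟩ := C.exists_residue p hj0 hnn
    · exact absurd hc (hj c)
    · have hy0 : j - algebraMap K F c ≠ 0 := sub_ne_zero.mpr (hj c)
      have hD : D K F (j - algebraMap K F c) = D K F j := by
        rw [map_sub, Derivation.map_algebraMap, sub_zero]
      have hspan' : Submodule.span F {D K F (j - algebraMap K F c)}
          = (⊤ : Submodule F Ω[F⁄K]) := by rw [hD]; exact hspan
      have hy : (PlacePoint.place C p).ord (j - algebraMap K F c) ≠ 0 := by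
        rw [PlacePoint.place_ord C p hy0]
        exact hc.ne'
      have h := OrdDiff.ordDifferential_smul_D (PlacePoint.place C p) E a b ha hb hE'
        (j - algebraMap K F c) hspan' hy g hg
      rw [hD] at h
      rw [h, PlacePoint.place_ord C p hg, PlacePoint.place_ord C p hy0, hWfin p c hc]
      ring

/-- **Degree of a canonical divisor.**  `W` is the divisor of `dj`. -/
theorem degree_eq_deg [IsAlgClosed K] [CharZero K] (C : Curve K F X)
    (hsum0 : ∀ x : F, x ≠ 0 → ∑ᶠ q : X, C.ord q x = 0)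
    (hsum : ∀ (C' : Curve K F (Option X)) (x : F), x ≠ 0 → ∑ᶠ q : Option X, C'.ord q x = 0)
    (halg : ∀ u : F, (∀ c : K, u ≠ algebraMap K F c) → Algebra.IsAlgebraic K⟮u⟯ F)
    (j : F) (hj : ∀ c : K, j ≠ algebraMap K F c)
    {L : Type*} [Field L] [CharZero L] [Algebra K L]
    (hE : ∀ p : X, ∃ (E : F →ₐ[K] LaurentSeries L) (a b : ℕ), 0 < a ∧ 0 < b ∧
        ∀ x : F, x ≠ 0 → (a : ℤ) * (E x).order = (b : ℤ) * C.ord p x)
    (W : X →₀ ℤ)
    (hWfin : ∀ (p : X) (c : K), 0 < C.ord p (j - algebraMap K F c) →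
        W p = C.ord p (j - algebraMap K F c) - 1)
    (hWinf : ∀ p : X, C.ord p j < 0 → W p = C.ord p j - 1)
    (ω : Ω[F⁄K]) (hω : ω ≠ 0) (D : AlgebraicCurve.Divisor K F)
    (hD : ∀ v : AlgebraicCurve.Place K F, D v = v.ordDifferential ω) :
    AlgebraicCurve.Divisor.degree D = PreCurve.deg W := by
  have hspan : Submodule.span F {KaehlerDifferential.D K F j} = (⊤ : Submodule F Ω[F⁄K]) :=
    KaehlerSpan.span_D_eq_top j (halg j hj)
  obtain ⟨g, rfl⟩ := KaehlerSpan.exists_eq_smul_D j (halg j hj) ω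
  have hg : g ≠ 0 := by
    rintro rfl
    exact hω (zero_smul _ _)
  have hbij : Function.Bijective (PlacePoint.place C) :=
    ⟨PlacePoint.place_injective C, PlacePoint.place_surjective C hsum0 hsum halg⟩
  rw [degree_eq_finsum D (PlaceRes.deg_eq_one halg), ← finsum_comp (PlacePoint.place C) hbij]
  have hpt : ∀ p : X, D (PlacePoint.place C p) = C.ord p g + W p := fun p => by
    rw [hD]
    exact ordDifferential_place C j hj hspan hE W hWfin hWinf g hg p
  simp only [hpt]
  rw [finsum_add_distrib (C.finite_support hg) (by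
    rw [Function.HasFiniteSupport, Finsupp.fun_support_eq]; exact W.support.finite_toSet),
    hsum0 g hg, zero_add, finsum_eq_finsupp_sum]
  rfl

/-- **The genus.** -/
theorem genus_eq [IsAlgClosed K] [CharZero K] (C : Curve K F X) [Nonempty X]
    (hsum0 : ∀ x : F, x ≠ 0 → ∑ᶠ q : X, C.ord q x = 0)
    (hsum : ∀ (C' : Curve K F (Option X)) (x : F), x ≠ 0 → ∑ᶠ q : Option X, C'.ord q x = 0)
    (halg : ∀ u : F, (∀ c : K, u ≠ algebraMap K F c) → Algebra.IsAlgebraic K⟮u⟯ F)
    (j : F) (hj : ∀ c : K, j ≠ algebraMap K F c)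
    {L : Type*} [Field L] [CharZero L] [Algebra K L]
    (hE : ∀ p : X, ∃ (E : F →ₐ[K] LaurentSeries L) (a b : ℕ), 0 < a ∧ 0 < b ∧
        ∀ x : F, x ≠ 0 → (a : ℤ) * (E x).order = (b : ℤ) * C.ord p x)
    (W : X →₀ ℤ)
    (hWfin : ∀ (p : X) (c : K), 0 < C.ord p (j - algebraMap K F c) →
        W p = C.ord p (j - algebraMap K F c) - 1)
    (hWinf : ∀ p : X, C.ord p j < 0 → W p = C.ord p j - 1)
    [AlgebraicCurve.HasCanonicalDivisor (K := K) (F := F)]
    (g : ℕ) (hg : PreCurve.deg W = 2 * (g : ℤ) - 2) :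
    AlgebraicCurve.genus K F = g := by
  have h : ∃ ω : Ω[F⁄K], ω ≠ 0 := exists_differential_ne_zero C hE
  have hdeg := degree_eq_deg C hsum0 hsum halg j hj hE W hWfin hWinf h.choose h.choose_spec
    (AlgebraicCurve.canonicalDivisorOf h.choose_spec)
    (AlgebraicCurve.canonicalDivisorOf_apply h.choose_spec)
  unfold AlgebraicCurve.genus
  rw [dif_pos h, hdeg, hg]
  omega

end Fermat.Agent.X0S24.Degree
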