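import Mathlib
import Fermat.Prelude.Def_ModularCurve_ArithmeticGalois
import Fermat.Agent.X0Fld.Datum
import Fermat.Agent.Cover.Count
import Fermat.Agent.Cover.W
import Fermat.Agent.X0S24.Base
import Fermat.Agent.X0S24.Embed

/-!
# S24 layer (C3b): `[F̄ : ℚ̄(j)] ≥ [SL₂(ℤ) : Γ₀(N)]`

`y₀ = jdBar N N` (the `q`-expansion of `j(N z)`) satisfies `iota N y₀ = (datum N).y`, which has
`index` pairwise distinct conjugates `ρ γ y` (`CoverDatum.mem_H_of_ρ_y`), all of them roots of
the image under `iota` of any polynomial over `ℚ̄(j)` killing `y₀` (`ρ γ` fixes `iota (ℚ̄(j))`,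
because it fixes `ℂ` and `j`).  Hence the minimal polynomial of `y₀` over `ℚ̄(j)` has degree at
least the index (or `y₀` is transcendental — excluded anyway, but irrelevant for the bound).
-/

set_option autoImplicit false

open ModularCurve
open scoped IntermediateField

namespace Fermat.Agent.X0S24.Rank

open Fermat.Agent.X0Fld Fermat.Agent.CoverL Fermat.Agent.X0S24.Base

section Generic

variable {K : Type*} [Field K] {𝔉 : Type*} [Field 𝔉] [Algebra K 𝔉] {Γ : Type*} [Group Γ]
  (D : CoverDatum K 𝔉 Γ)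
  {K₀ : Type*} [Field K₀] [Algebra K₀ K] {L : Type*} [Field L] [Algebra K₀ L]
  (ι : L →+* ↥(D.F))

/-- if `ι : L → D.F` is a ring embedding compatible with the constants and mapping `jb` to `j`,
then the image of `K₀(jb)` is fixed by the whole group -/
theorem ρ_ι_of_mem_adjoin
    (hι : ∀ c : K₀, ι (algebraMap K₀ L c) = algebraMap K ↥(D.F) (algebraMap K₀ K c))
    (jb : L) (hj : ι jb = D.jF) (γ : Γ) (a : L) (ha : a ∈ K₀⟮jb⟯) :
    D.ρ γ ((ι a : ↥(D.F)) : 𝔉) = ((ι a : ↥(D.F)) : 𝔉) := by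
  induction ha using IntermediateField.adjoin_induction with
  | mem x hx =>
    rw [Set.mem_singleton_iff] at hx
    subst hx
    rw [hj]
    exact D.ρ_j γ
  | algebraMap x =>
    rw [hι]
    exact AlgEquiv.commutes _ _
  | add x y hx hy ihx ihy =>
    rw [map_add]
    change D.ρ γ (((ι x : ↥(D.F)) : 𝔉) + ((ι y : ↥(D.F)) : 𝔉)) = _ + _
    rw [map_add]; exact congrArg₂ _ ihx ihy
  | inv x hx ih =>
    rw [map_inv₀]
    change D.ρ γ (((ι x : ↥(D.F)) : 𝔉))⁻¹ = _⁻¹
    rw [map_inv₀, ih]
  | mul x y hx hy ihx ihy =>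
    rw [map_mul]
    change D.ρ γ (((ι x : ↥(D.F)) : 𝔉) * ((ι y : ↥(D.F)) : 𝔉)) = _ * _
    rw [map_mul]; exact congrArg₂ _ ihx ihy

/-- generic form of `index_le_rank`: a subfield `L` of `D.F` over a subfield `K₀` of the
constants, containing `j` and `y`, has degree at least `H.index` over `K₀(j)` -/
theorem index_le_rank_of_embedding
    (hι : ∀ c : K₀, ι (algebraMap K₀ L c) = algebraMap K ↥(D.F) (algebraMap K₀ K c))
    (jb : L) (hj : ι jb = D.jF) (y₀ : L) (hy : ((ι y₀ : ↥(D.F)) : 𝔉) = D.y) :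
    ((D.H.index : ℕ) : Cardinal) ≤ Module.rank ↥(K₀⟮jb⟯) L := by
  classical
  have : Finite (Γ ⧸ D.H) := Nat.finite_of_card_ne_zero D.H_index_ne_zero
  let _ : Fintype (Γ ⧸ D.H) := Fintype.ofFinite _
  have hcard : Fintype.card (Γ ⧸ D.H) = D.H.index := by
    rw [← Nat.card_eq_fintype_card]; rfl
  have hli : LinearIndependent ↥(K₀⟮jb⟯) (fun i : Fin D.H.index => y₀ ^ (i : ℕ)) := by
    rw [Fintype.linearIndependent_iff]
    intro g hg i
    let c : Fin D.H.index → 𝔉 := fun i => ((ι (g i : L) : ↥(D.F)) : 𝔉)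
    have hg' : ∑ i : Fin D.H.index, c i * D.y ^ (i : ℕ) = 0 := by
      have h1 := congrArg (fun x : L => ((ι x : ↥(D.F)) : 𝔉)) hg
      simp only [IntermediateField.smul_def, smul_eq_mul, map_sum, map_mul, map_pow, map_zero,
        ZeroMemClass.coe_zero] at h1
      rw [← h1, ← hy]
      push_cast
      rfl
    have hp0 : Polynomial.ofFn D.H.index c = 0 := by
      refine Polynomial.eq_zero_of_natDegree_lt_card_of_eval_eq_zero _ D.injective_ρ_out_y
        (fun q => ?_) ?_
      · have h2 := congrArg (D.ρ q.out) hg'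
        rw [map_sum, map_zero] at h2
        rw [Polynomial.ofFn_eq_sum_monomial, Polynomial.eval_finsetSum, ← h2]
        refine Finset.sum_congr rfl fun i _ => ?_
        rw [Polynomial.eval_monomial, map_mul, map_pow]
        congr 1
        exact (ρ_ι_of_mem_adjoin D ι hι jb hj q.out _ (g i).2).symm
      · rw [hcard]
        exact Polynomial.ofFn_natDegree_lt (Nat.one_le_iff_ne_zero.mpr D.H_index_ne_zero) _
    have h3 := Polynomial.ofFn_coeff_eq_val_of_lt c i.2
    rw [hp0, Polynomial.coeff_zero] at h3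
    have h4 : c i = 0 := h3.symm
    have h5 : ι (g i : L) = 0 := Subtype.ext h4
    have h6 : (g i : L) = 0 := (map_eq_zero_iff _ ι.injective).mp h5
    exact_mod_cast h6
  simpa using hli.cardinal_lift_le_rank

end Generic

variable (N : ℕ) [NeZero N]

/-- the degree of `F̄` over `ℚ̄(j)` is at least the index of `Γ₀(N)` -/
theorem index_le_rank :
    (((datum N).H.index : ℕ) : Cardinal)
      ≤ Module.rank ↥((AlgebraicClosure ℚ)⟮Embed.jbar N⟯) ↥(modularFunctionFieldBar N) :=
  index_le_rank_of_embedding (datum N) (Embed.iota N) (Embed.iota_algebraMap N)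
    (Embed.jbar N) (Embed.iota_jbar N) (Embed.jdBar N N dvd_rfl)
    (Embed.coe_iota_jdBar N N dvd_rfl)

end Fermat.Agent.X0S24.Rank
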