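import Mathlib
import Fermat.Agent.RR.Main
import Fermat.Agent.X0S24.PreCurveBasic

/-!
# S24 layer (G7): restricting a curve to a subfield of definition

`K₀ ⊂ K` (`K₀` algebraically closed), `ι : F₀ → F` an embedding of a field `F₀/K₀` into the
function field `F/K` of a `PreCurve`, `j ∈ F₀` with `F₀` algebraic over `K₀(j)`.
The points "above `K₀ ∪ {∞}`" (those where `j` has a pole or takes a value in `K₀`) with the
restricted valuations form a `PreCurve K₀ F₀`, and a `Curve` under the counting hypotheses
of `PreCurve.curve_of_count`.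

Generic; no modular input.
-/

set_option autoImplicit false

open scoped IntermediateField

namespace Fermat.Agent.X0S24.Restrict

open Fermat.Agent.RRL

/-! ### Local ring of a `PreCurve` at a point -/

section Local

variable {K F X : Type*} [Field K] [Field F] [Algebra K F] (C : PreCurve K F X) (p : X)

/-- the local ring at `p`, as a `K`-subalgebra of `F` -/
def localRing : Subalgebra K F where
  carrier := {z | z = 0 ∨ 0 ≤ C.ord p z}
  mul_mem' := by
    rintro a b ha hb
    by_cases ha0 : a = 0
    · left; simp [ha0]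
    by_cases hb0 : b = 0
    · left; simp [hb0]
    right
    rw [C.ord_mul p ha0 hb0]
    have h1 := ha.resolve_left ha0
    have h2 := hb.resolve_left hb0
    omega
  add_mem' := by
    rintro a b ha hb
    by_cases ha0 : a = 0
    · simpa [ha0] using hb
    by_cases hb0 : b = 0
    · simpa [hb0] using ha
    by_cases hab : a + b = 0
    · exact Or.inl hab
    right
    have h1 := ha.resolve_left ha0
    have h2 := hb.resolve_left hb0
    exact le_trans (le_min h1 h2) (C.ord_add p ha0 hb0 hab)
  algebraMap_mem' := by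
    intro c
    by_cases hc : c = 0
    · left; simp [hc]
    · right; rw [C.ord_algebraMap p hc]

theorem mem_localRing {z : F} : z ∈ localRing C p ↔ z = 0 ∨ 0 ≤ C.ord p z := Iff.rfl

/-- membership in the maximal ideal at `p`, as a predicate -/
def IsSmall (z : F) : Prop := z = 0 ∨ 0 < C.ord p z

variable {C p}

theorem IsSmall.mem {z : F} (h : IsSmall C p z) : z ∈ localRing C p :=
  h.imp id le_of_lt

theorem IsSmall.mul_mem {a b : F} (ha : IsSmall C p a) (hb : b ∈ localRing C p) :
    IsSmall C p (a * b) := by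
  by_cases ha0 : a = 0
  · left; simp [ha0]
  by_cases hb0 : b = 0
  · left; simp [hb0]
  right
  rw [C.ord_mul p ha0 hb0]
  have h1 := ha.resolve_left ha0
  have h2 := hb.resolve_left hb0
  omega

theorem ord_aeval_eq_zero {z : F} {c : K} (hz : IsSmall C p (z - algebraMap K F c))
    (R : Polynomial K) (hR : R.eval c ≠ 0) :
    Polynomial.aeval z R ≠ 0 ∧ C.ord p (Polynomial.aeval z R) = 0 := by
  obtain ⟨S, hS⟩ := Polynomial.X_sub_C_dvd_sub_C_eval (a := c) (p := R)
  have hzO : z ∈ localRing C p := by
    have e : z = (z - algebraMap K F c) + algebraMap K F c := by ring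
    rw [e]
    exact add_mem hz.mem (Subalgebra.algebraMap_mem _ c)
  have h1 : Polynomial.aeval z R - algebraMap K F (R.eval c) =
      (z - algebraMap K F c) * Polynomial.aeval z S := by
    have h := congrArg (Polynomial.aeval z) hS
    simpa using h
  have hSO : Polynomial.aeval z S ∈ localRing C p :=
    Algebra.adjoin_le (Set.singleton_subset_iff.mpr hzO)
      (Polynomial.aeval_mem_adjoin_singleton K z)
  have hsm : IsSmall C p (Polynomial.aeval z R - algebraMap K F (R.eval c)) := by
    rw [h1]; exact hz.mul_mem hSO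
  have hc : algebraMap K F (R.eval c) ≠ 0 := (map_ne_zero (algebraMap K F)).mpr hR
  have e : Polynomial.aeval z R = algebraMap K F (R.eval c) +
      (Polynomial.aeval z R - algebraMap K F (R.eval c)) := by ring
  by_cases h0 : Polynomial.aeval z R - algebraMap K F (R.eval c) = 0
  · rw [sub_eq_zero] at h0
    rw [h0]
    exact ⟨hc, C.ord_algebraMap p hR⟩
  · have hpos := hsm.resolve_left h0
    have hlt : C.ord p (algebraMap K F (R.eval c)) <
        C.ord p (Polynomial.aeval z R - algebraMap K F (R.eval c)) := by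
      rw [C.ord_algebraMap p hR]; exact hpos
    constructor
    · rw [e]
      exact PC.add_ne_zero_of_ord_ne C p hc h0 (ne_of_lt hlt)
    · rw [e, PC.ord_add_eq_of_lt C p hc h0 hlt, C.ord_algebraMap p hR]

variable (C p)

/-- the local ring at `p` as a valuation subring -/
def valSubring : ValuationSubring F :=
  { (localRing C p).toSubring with
    mem_or_inv_mem' := by
      intro z
      by_cases hz : z = 0
      · left; left; exact hz
      rcases le_total 0 (C.ord p z) with h | h
      · left; right; exact h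
      · right; right
        rw [PC.ord_inv C p hz]
        omega }

theorem mem_valSubring {z : F} : z ∈ valSubring C p ↔ z = 0 ∨ 0 ≤ C.ord p z := Iff.rfl

end Local

/-! ### Generic field-theoretic lemmas -/

section Generic

variable {k L : Type*} [Field k] [Field L] [Algebra k L]

/-- a valuation subring containing an intermediate field contains its integral closure -/
theorem mem_of_isIntegral_of_le (A : ValuationSubring L) (E : IntermediateField k L)
    (hE : ∀ e ∈ E, e ∈ A) {w : L} (hw : IsIntegral E w) : w ∈ A := by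
  obtain ⟨q, hq, hqw⟩ := hw
  let f : E →+* A :=
    { toFun := fun e => ⟨e.1, hE e.1 e.2⟩
      map_one' := rfl
      map_mul' := fun _ _ => rfl
      map_zero' := rfl
      map_add' := fun _ _ => rfl }
  have hint : IsIntegral A w := by
    refine ⟨q.map f, hq.map f, ?_⟩
    rw [Polynomial.eval₂_map]
    exact hqw
  obtain ⟨y, hy⟩ := IsIntegrallyClosed.isIntegral_iff.mp hint
  rw [← hy]
  exact y.2

/-- over an algebraically closed field, algebraic elements are constants -/
theorem mem_range_of_isAlgebraic [IsAlgClosed k] {x : L} (h : IsAlgebraic k x) :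
    x ∈ (algebraMap k L).range :=
  minpoly.mem_range_of_degree_eq_one k x
    (IsAlgClosed.degree_eq_one_of_irreducible k (minpoly.irreducible h.isIntegral))

open scoped IntermediateField.algebraAdjoinAdjoin in
/-- the exchange lemma for two elements -/
theorem isAlgebraic_exchange {x j : L} (hx : Transcendental k x) (h : IsAlgebraic k⟮j⟯ x) :
    IsAlgebraic k⟮x⟯ j := by
  by_contra hj
  have hj' : Transcendental (Algebra.adjoin k {x}) j := fun h' =>
    hj (h'.extendScalars (FaithfulSMul.algebraMap_injective (Algebra.adjoin k {x}) k⟮x⟯))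
  let v : Bool → L := fun b => if b then x else j
  have hind : AlgebraicIndependent k v := by
    rw [AlgebraicIndependent.iff_transcendental_adjoin_image false]
    refine ⟨?_, ?_⟩
    · have : Subsingleton {b : Bool // b ≠ false} :=
        ⟨fun a b => Subtype.ext (by have := a.2; have := b.2; simp_all)⟩
      rw [algebraicIndependent_singleton_iff ⟨true, by simp⟩]
      exact hx
    · have e : v '' {false}ᶜ = {x} := by
        ext y; simp [v]
      rw [e]
      exact hj'
  have h2 := hind.transcendental_adjoin (s := {false}) (i := true) (by simp)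
  rw [Set.image_singleton] at h2
  exact h2 (h.restrictScalars (Algebra.adjoin k {j}))

/-- a sum over a subtype of a nonnegative finitely supported function is at most the full sum -/
theorem finsum_subtype_le {Y : Type*} (P : Y → Prop) (f : Y → ℤ) (hf : ∀ y, 0 ≤ f y)
    (hfin : (Function.support f).Finite) : ∑ᶠ q : {y // P y}, f q.1 ≤ ∑ᶠ y, f y := by
  rw [finsum_subtype_eq_finsum_cond (p := P)]
  have e : ∑ᶠ (i) (_ : P i), f i = ∑ᶠ i, Set.indicator {i | P i} f i :=
    finsum_mem_def {i | P i} f
  rw [e]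
  have hsub : Function.support (Set.indicator {i | P i} f) ⊆ Function.support f := by
    rw [Set.support_indicator]
    exact Set.inter_subset_right
  refine finsum_le_finsum' (hfin.subset hsub) hfin ?_
  intro i
  by_cases hi : i ∈ {i | P i}
  · simp [Set.indicator_of_mem hi]
  · simp [Set.indicator_of_notMem hi, hf i]

end Generic

/-- the data of a restriction problem -/
structure Setup (K₀ K F₀ F X : Type*) [Field K₀] [Field K] [Algebra K₀ K] [Field F₀] [Field F]
    [Algebra K₀ F₀] [Algebra K F] where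
  C : PreCurve K F X
  ι : F₀ →+* F
  ι_algebraMap : ∀ c : K₀, ι (algebraMap K₀ F₀ c) = algebraMap K F (algebraMap K₀ K c)
  j : F₀
  isAlgebraic : Algebra.IsAlgebraic K₀⟮j⟯ F₀
  /-- the only elements of `F₀` that become constants are the constants of `K₀` -/
  const : ∀ (x : F₀) (c : K), ι x = algebraMap K F c → ∃ c₀ : K₀, x = algebraMap K₀ F₀ c₀
  j_nonconst : ∀ c : K₀, j ≠ algebraMap K₀ F₀ c

namespace Setup

variable {K₀ K F₀ F X : Type*} [Field K₀] [Field K] [Algebra K₀ K] [Field F₀] [Field F]
  [Algebra K₀ F₀] [Algebra K F]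

/-- the points where `j` has a pole or takes a value in `K₀` -/
def Pt (S : Setup K₀ K F₀ F X) : Type _ :=
  {p : X // S.C.ord p (S.ι S.j) < 0 ∨
    ∃ c : K₀, 0 < S.C.ord p (S.ι (S.j - algebraMap K₀ F₀ c))}

/-- if the residue at `p` of `z ∈ F₀` is not in `K₀`, then the elements of `F₀` algebraic over
`K₀(z)` have neither a zero nor a pole at `p`. -/
theorem ord_eq_zero_of_residue_not_mem [IsAlgClosed K₀] (S : Setup K₀ K F₀ F X) (p : X)
    {z : F₀} {c' : K} (hz : IsSmall S.C p (S.ι z - algebraMap K F c'))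
    (hc' : c' ∉ (algebraMap K₀ K).range) {w : F₀} (hw : w ≠ 0) (halg : IsAlgebraic K₀⟮z⟯ w) :
    S.C.ord p (S.ι w) = 0 := by
  have htr : Transcendental K₀ c' := fun h => hc' (mem_range_of_isAlgebraic h)
  have key : ∀ a : Polynomial K₀, a ≠ 0 →
      S.ι (Polynomial.aeval z a) ≠ 0 ∧ S.C.ord p (S.ι (Polynomial.aeval z a)) = 0 := by
    intro a ha
    have e : S.ι (Polynomial.aeval z a) =
        Polynomial.aeval (S.ι z) (a.map (algebraMap K₀ K)) := by
      rw [Polynomial.aeval_def, Polynomial.hom_eval₂, Polynomial.aeval_def, Polynomial.eval₂_map]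
      congr 1
      ext c
      exact S.ι_algebraMap c
    rw [e]
    refine ord_aeval_eq_zero hz _ ?_
    rw [Polynomial.eval_map, ← Polynomial.aeval_def]
    exact fun h0 => ha (transcendental_iff.mp htr a h0)
  have hE : ∀ e ∈ K₀⟮z⟯, e ∈ (valSubring S.C p).comap S.ι := by
    intro e he
    rw [IntermediateField.mem_adjoin_simple_iff] at he
    obtain ⟨r, s, rfl⟩ := he
    change S.ι (Polynomial.aeval z r / Polynomial.aeval z s) ∈ valSubring S.C p
    rw [map_div₀, mem_valSubring]
    by_cases hr : r = 0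
    · left; simp [hr]
    by_cases hs : s = 0
    · left; simp [hs]
    right
    rw [PC.ord_div S.C p (key r hr).1 (key s hs).1, (key r hr).2, (key s hs).2, sub_zero]
  have hιw : S.ι w ≠ 0 := (map_ne_zero S.ι).mpr hw
  have h1 : S.ι w ∈ valSubring S.C p :=
    mem_of_isIntegral_of_le ((valSubring S.C p).comap S.ι) _ hE halg.isIntegral
  have h2 : S.ι w⁻¹ ∈ valSubring S.C p :=
    mem_of_isIntegral_of_le ((valSubring S.C p).comap S.ι) _ hE halg.inv.isIntegral
  rw [mem_valSubring] at h1 h2
  rw [map_inv₀] at h2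
  have h1' := h1.resolve_left hιw
  have h2' := h2.resolve_left (inv_ne_zero hιw)
  rw [PC.ord_inv S.C p hιw] at h2'
  omega

/-- at a point of `Pt`, the residue of an element of `F₀` lies in `K₀`. -/
theorem residue_mem [IsAlgClosed K₀] (S : Setup K₀ K F₀ F X) (p : S.Pt) {x : F₀} (hx : x ≠ 0)
    (h0 : 0 ≤ S.C.ord p.1 (S.ι x)) :
    ∃ c : K₀, x = algebraMap K₀ F₀ c ∨ 0 < S.C.ord p.1 (S.ι (x - algebraMap K₀ F₀ c)) := by
  have hinj := S.ι.injective
  have hιx : S.ι x ≠ 0 := (map_ne_zero S.ι).mpr hx
  obtain ⟨c', hc'⟩ := S.C.exists_residue p.1 hιx h0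
  by_cases hmem : c' ∈ (algebraMap K₀ K).range
  · obtain ⟨c₀, rfl⟩ := hmem
    refine ⟨c₀, ?_⟩
    rw [← S.ι_algebraMap] at hc'
    rcases hc' with h | h
    · left; exact hinj h
    · right; rwa [map_sub]
  · exfalso
    have hsmall : IsSmall S.C p.1 (S.ι x - algebraMap K F c') := by
      rcases hc' with h | h
      · left; rw [h, sub_self]
      · right; exact h
    have hxtr : Transcendental K₀ x := by
      intro halg
      obtain ⟨c₀, rfl⟩ := mem_range_of_isAlgebraic halg
      apply hmem
      refine ⟨c₀, ?_⟩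
      exact PC.residue_unique S.C p.1 (Or.inl (S.ι_algebraMap c₀)) hc'
    have hj : IsAlgebraic K₀⟮x⟯ S.j :=
      isAlgebraic_exchange hxtr (S.isAlgebraic.isAlgebraic x)
    rcases p.2 with hpole | ⟨c, hc⟩
    · have hj0 : S.j ≠ 0 := by
        intro h; exact S.j_nonconst 0 (by simpa using h)
      have h3 := S.ord_eq_zero_of_residue_not_mem p.1 hsmall hmem hj0 hj
      omega
    · have hjc : S.j - algebraMap K₀ F₀ c ≠ 0 := sub_ne_zero.mpr (S.j_nonconst c)
      have hc_alg : IsAlgebraic K₀⟮x⟯ (algebraMap K₀ F₀ c) := by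
        rw [IsScalarTower.algebraMap_apply K₀ K₀⟮x⟯ F₀]
        exact isAlgebraic_algebraMap _
      have h3 := S.ord_eq_zero_of_residue_not_mem p.1 hsmall hmem hjc (hj.sub hc_alg)
      omega

/-- away from `Pt`, elements of `F₀` have neither zeros nor poles. -/
theorem ord_eq_zero_of_not_mem [IsAlgClosed K₀] (S : Setup K₀ K F₀ F X) (p : X)
    (hp : ¬ (S.C.ord p (S.ι S.j) < 0 ∨
      ∃ c : K₀, 0 < S.C.ord p (S.ι (S.j - algebraMap K₀ F₀ c))))
    {x : F₀} (hx : x ≠ 0) : S.C.ord p (S.ι x) = 0 := by
  have hj0 : S.j ≠ 0 := by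
    intro h; exact S.j_nonconst 0 (by simpa using h)
  have hιj : S.ι S.j ≠ 0 := (map_ne_zero S.ι).mpr hj0
  have h0 : 0 ≤ S.C.ord p (S.ι S.j) := by
    by_contra h
    exact hp (Or.inl (not_le.mp h))
  obtain ⟨c', hc'⟩ := S.C.exists_residue p hιj h0
  have hc'' : 0 < S.C.ord p (S.ι S.j - algebraMap K F c') := by
    rcases hc' with h | h
    · exfalso
      obtain ⟨c₀, hc₀⟩ := S.const _ _ h
      exact S.j_nonconst c₀ hc₀
    · exact h
  have hmem : c' ∉ (algebraMap K₀ K).range := by
    rintro ⟨c₀, rfl⟩
    apply hp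
    right
    refine ⟨c₀, ?_⟩
    rw [map_sub, S.ι_algebraMap]
    exact hc''
  exact S.ord_eq_zero_of_residue_not_mem p (Or.inr hc'') hmem hx (S.isAlgebraic.isAlgebraic x)

/-- the restricted pre-curve -/
noncomputable def preCurve [IsAlgClosed K₀] (S : Setup K₀ K F₀ F X) : PreCurve K₀ F₀ S.Pt where
  ord p x := S.C.ord p.1 (S.ι x)
  ord_mul := by
    intro p x y hx hy
    rw [map_mul]
    exact S.C.ord_mul p.1 ((map_ne_zero S.ι).mpr hx) ((map_ne_zero S.ι).mpr hy)
  ord_add := by
    intro p x y hx hy hxy
    rw [map_add]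
    exact S.C.ord_add p.1 ((map_ne_zero S.ι).mpr hx) ((map_ne_zero S.ι).mpr hy)
      (by rw [← map_add]; exact (map_ne_zero S.ι).mpr hxy)
  ord_algebraMap := by
    intro p c hc
    rw [S.ι_algebraMap]
    exact S.C.ord_algebraMap p.1 ((map_ne_zero (algebraMap K₀ K)).mpr hc)
  exists_residue := fun p _ hx h0 => S.residue_mem p hx h0
  finite_support := by
    intro x hx
    have h := S.C.finite_support ((map_ne_zero S.ι).mpr hx)
    exact h.preimage (f := fun q : S.Pt => q.1) (Subtype.val_injective.injOn)
  const_of_nonneg := by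
    intro x hx h
    have hall : ∀ p : X, 0 ≤ S.C.ord p (S.ι x) := by
      intro p
      by_cases hp : S.C.ord p (S.ι S.j) < 0 ∨
          ∃ c : K₀, 0 < S.C.ord p (S.ι (S.j - algebraMap K₀ F₀ c))
      · exact h ⟨p, hp⟩
      · rw [S.ord_eq_zero_of_not_mem p hp hx]
    obtain ⟨c, hc⟩ := S.C.const_of_nonneg ((map_ne_zero S.ι).mpr hx) hall
    exact S.const x c hc

@[simp]
theorem preCurve_ord [IsAlgClosed K₀] (S : Setup K₀ K F₀ F X) (p : S.Pt) (x : F₀) :
    S.preCurve.ord p x = S.C.ord p.1 (S.ι x) := rfl

/-- the restricted curve, under the counting hypotheses -/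
theorem exists_curve [IsAlgClosed K₀] (S : Setup K₀ K F₀ F X) (n : ℕ)
    (hn : (n : Cardinal) ≤ Module.rank K₀⟮S.j⟯ F₀)
    (hfin : ∀ c : K₀, ∑ᶠ p : X, max (S.C.ord p (S.ι (S.j - algebraMap K₀ F₀ c))) 0 ≤ (n : ℤ))
    (hinf : ∑ᶠ p : X, max (-S.C.ord p (S.ι S.j)) 0 ≤ (n : ℤ)) :
    ∃ C₀ : Curve K₀ F₀ S.Pt, C₀.toPreCurve = S.preCurve := by
  have hj0 : S.j ≠ 0 := by
    intro h; exact S.j_nonconst 0 (by simpa using h)
  have hcount := PreCurve.curve_of_count S.preCurve S.j n S.j_nonconst hn ?_ ?_
  · exact ⟨{ toPreCurve := S.preCurve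
             exists_uniformizer := hcount.1
             separated := hcount.2 }, rfl⟩
  · intro c
    refine le_trans ?_ (hfin c)
    have hjc : S.ι (S.j - algebraMap K₀ F₀ c) ≠ 0 :=
      (map_ne_zero S.ι).mpr (sub_ne_zero.mpr (S.j_nonconst c))
    refine finsum_subtype_le _
      (fun p : X => max (S.C.ord p (S.ι (S.j - algebraMap K₀ F₀ c))) 0)
      (fun _ => le_max_right _ _) ?_
    refine (S.C.finite_support hjc).subset ?_
    intro q hq h0
    apply hq
    change max (S.C.ord q (S.ι (S.j - algebraMap K₀ F₀ c))) 0 = 0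
    rw [h0, max_self]
  · refine le_trans ?_ hinf
    have hj : S.ι S.j ≠ 0 := (map_ne_zero S.ι).mpr hj0
    refine finsum_subtype_le _
      (fun p : X => max (-S.C.ord p (S.ι S.j)) 0)
      (fun _ => le_max_right _ _) ?_
    refine (S.C.finite_support hj).subset ?_
    intro q hq h0
    apply hq
    change max (-S.C.ord q (S.ι S.j)) 0 = 0
    rw [h0, neg_zero, max_self]

end Setup

end Fermat.Agent.X0S24.Restrict
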