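import Mathlib
import Fermat.Prelude.Def_ModularCurve_ArithmeticGalois
import Fermat.Prelude.Def_AlgebraicCurve_CanonicalDivisor
import Fermat.Agent.X0Fld.Datum
import Fermat.Agent.Cover.Count
import Fermat.Agent.Cover.W
import Fermat.Agent.RR.Export
import Fermat.Agent.X0S24.Base
import Fermat.Agent.X0S24.Descent
import Fermat.Agent.X0S24.Embed
import Fermat.Agent.X0S24.Alg
import Fermat.Agent.X0S24.Rank
import Fermat.Agent.X0S24.Restrict
import Fermat.Agent.X0S24.Degree

/-!
# S24 layer (C4): the genus of the function field of `X₀(N)` over `ℚ̄`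

Assembly: the restriction (`Restrict.Setup`) of the curve of `datum N` to `F̄`, its expansions,
its divisor `W̄`, and `Degree.genus_eq`.
-/

set_option autoImplicit false

open ModularCurve
open scoped IntermediateField MatrixGroups

namespace Fermat.Agent.X0S24.Final

open Fermat.Agent.X0Fld Fermat.Agent.CoverL Fermat.Agent.RRL Fermat.Agent.X0S24.Base
open Fermat.Agent.X0S24

variable (N : ℕ) [NeZero N]

/-- the restriction problem for `F̄ ⊆ (datum N).F` -/
noncomputable def setup :
    Restrict.Setup (AlgebraicClosure ℚ) ℂ ↥(modularFunctionFieldBar N) ↥((datum N).F)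
      (datum N).Pt where
  C := (datum N).preCurve
  ι := Embed.iota N
  ι_algebraMap := Embed.iota_algebraMap N
  j := Embed.jbar N
  isAlgebraic := Alg.isAlgebraic_jbar N
  const := Embed.iota_const N
  j_nonconst := Embed.jbar_ne_algebraMap N

@[simp] theorem setup_C : (setup N).C = (datum N).preCurve := rfl
@[simp] theorem setup_ι : (setup N).ι = Embed.iota N := rfl
@[simp] theorem setup_j : (setup N).j = Embed.jbar N := rfl

theorem iota_jbar_sub (c : AlgebraicClosure ℚ) :
    Embed.iota N (Embed.jbar N - algebraMap (AlgebraicClosure ℚ) ↥(modularFunctionFieldBar N) c)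
      = (datum N).jF - algebraMap ℂ ↥((datum N).F) (algebraMap (AlgebraicClosure ℚ) ℂ c) := by
  rw [map_sub, Embed.iota_jbar, Embed.iota_algebraMap]

/-- the orders of the restricted pre-curve -/
theorem setup_ord (p : (setup N).Pt) (x : ↥(modularFunctionFieldBar N)) :
    (setup N).preCurve.ord p x = (datum N).ordAt p.1 (Embed.iota N x) := rfl

/-- the curve over `ℚ̄` -/
theorem exists_curve :
    ∃ C₀ : Curve (AlgebraicClosure ℚ) ↥(modularFunctionFieldBar N) (setup N).Pt,
      C₀.toPreCurve = (setup N).preCurve := by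
  refine (setup N).exists_curve (datum N).H.index (Rank.index_le_rank N) ?_ ?_
  · intro c
    refine le_of_eq ?_
    have h := (datum N).finsum_max_ordAt_jF_sub (algebraMap (AlgebraicClosure ℚ) ℂ c)
    rw [← h]
    refine finsum_congr fun p => ?_
    rw [setup_ι, setup_j, iota_jbar_sub]
    rfl
  · refine le_of_eq ?_
    have h := (datum N).finsum_max_neg_ordAt_jF
    rw [← h]
    refine finsum_congr fun p => ?_
    rw [setup_ι, setup_j, Embed.iota_jbar]
    rfl

/-- membership in the restricted set of points -/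
theorem mem_Pt_iff (p : (datum N).Pt) :
    ((setup N).C.ord p ((setup N).ι (setup N).j) < 0 ∨
      ∃ c : AlgebraicClosure ℚ, 0 < (setup N).C.ord p ((setup N).ι ((setup N).j -
        algebraMap (AlgebraicClosure ℚ) ↥(modularFunctionFieldBar N) c))) ↔
    ((datum N).ordAt p (datum N).jF < 0 ∨
      ∃ c : AlgebraicClosure ℚ, 0 < (datum N).ordAt p ((datum N).jF -
        algebraMap ℂ ↥((datum N).F) (algebraMap (AlgebraicClosure ℚ) ℂ c))) := by
  simp only [setup_C, setup_ι, setup_j, iota_jbar_sub, Embed.iota_jbar]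
  rfl

/-- the points above `∞` are in the restricted set -/
theorem mem_Pt_infty (q : DoubleCoset.Quotient ((datum N).H : Set SL(2, ℤ))
    ((datum N).G OnePoint.infty : Set SL(2, ℤ))) :
    (datum N).ordAt ⟨OnePoint.infty, q⟩ (datum N).jF < 0 := by
  rw [(datum N).ordAt_jF_infty q]
  have := (datum N).e_pos ⟨OnePoint.infty, q⟩
  omega

/-- a point outside the restricted set is unramified -/
theorem W_eq_zero_of_not_mem (p : (datum N).Pt)
    (hp : ¬ ((datum N).ordAt p (datum N).jF < 0 ∨
      ∃ c : AlgebraicClosure ℚ, 0 < (datum N).ordAt p ((datum N).jF -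
        algebraMap ℂ ↥((datum N).F) (algebraMap (AlgebraicClosure ℚ) ℂ c)))) :
    (datum N).W p = 0 := by
  obtain ⟨P, q⟩ := p
  induction P using OnePoint.rec with
  | infty => exact absurd (Or.inl (mem_Pt_infty N q)) hp
  | coe c =>
    have hc : ∀ c₀ : AlgebraicClosure ℚ, algebraMap (AlgebraicClosure ℚ) ℂ c₀ ≠ c := by
      intro c₀ h
      apply hp
      right
      refine ⟨c₀, ?_⟩
      subst h
      rw [(datum N).ordAt_jF_sub_coe _ q]
      exact_mod_cast (datum N).e_pos _
    have h0 : c ≠ 0 := fun h => hc 0 (by rw [map_zero, h])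
    have h1 : c ≠ 1728 := fun h => hc 1728 (by rw [map_ofNat, h])
    have hG : (datum N).G (c : OnePoint ℂ) ≤ (datum N).H.normalCore := by
      rw [datum_G_coe, datum_H, Gfin_generic h0 h1, Subgroup.zpowers_le]
      exact neg_one_mem_normalCore_Gamma0 N
    rw [(datum N).W_coe c q, (datum N).e_eq_one_of_le_normalCore _ hG q]
    simp

/-- the divisor of `dj` on the curve over `ℚ̄` -/
noncomputable def Wbar : (setup N).Pt →₀ ℤ :=
  (datum N).W.comapDomain Subtype.val Subtype.val_injective.injOn

theorem Wbar_apply (p : (setup N).Pt) : Wbar N p = (datum N).W p.1 := rfl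

theorem deg_Wbar : PreCurve.deg (Wbar N) = PreCurve.deg (datum N).W := by
  have hbij : Set.BijOn (Subtype.val : (setup N).Pt → (datum N).Pt)
      (Subtype.val ⁻¹' ((datum N).W.support : Set (datum N).Pt))
      ((datum N).W.support : Set (datum N).Pt) := by
    refine ⟨fun p hp => hp, Subtype.val_injective.injOn, ?_⟩
    intro p hp
    have hW : (datum N).W p ≠ 0 := Finsupp.mem_support_iff.mp hp
    have hmem : (setup N).C.ord p ((setup N).ι (setup N).j) < 0 ∨
        ∃ c : AlgebraicClosure ℚ, 0 < (setup N).C.ord p ((setup N).ι ((setup N).j -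
          algebraMap (AlgebraicClosure ℚ) ↥(modularFunctionFieldBar N) c)) := by
      rw [mem_Pt_iff]
      by_contra hcon
      exact hW (W_eq_zero_of_not_mem N p hcon)
    exact ⟨⟨p, hmem⟩, hp, rfl⟩
  exact Finsupp.sum_comapDomain Subtype.val (datum N).W (fun _ n => n) hbij

theorem Wbar_fin (p : (setup N).Pt) (c : AlgebraicClosure ℚ)
    (h : 0 < (setup N).preCurve.ord p
      (Embed.jbar N - algebraMap (AlgebraicClosure ℚ) ↥(modularFunctionFieldBar N) c)) :
    Wbar N p = (setup N).preCurve.ord p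
      (Embed.jbar N - algebraMap (AlgebraicClosure ℚ) ↥(modularFunctionFieldBar N) c) - 1 := by
  rw [setup_ord, iota_jbar_sub] at h ⊢
  rw [Wbar_apply]
  obtain ⟨⟨P, q⟩, hp⟩ := p
  simp only at h ⊢
  induction P using OnePoint.rec with
  | infty =>
    rw [(datum N).ordAt_jF_sub_infty _ q] at h
    have := (datum N).e_pos ⟨OnePoint.infty, q⟩
    omega
  | coe c' =>
    by_cases hc : c' = algebraMap (AlgebraicClosure ℚ) ℂ c
    · subst hc
      rw [(datum N).ordAt_jF_sub_coe _ q, (datum N).W_coe _ q]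
    · rw [(datum N).ordAt_jF_sub_coe_of_ne _ c' hc q] at h
      exact absurd h (lt_irrefl 0)

theorem Wbar_inf (p : (setup N).Pt) (h : (setup N).preCurve.ord p (Embed.jbar N) < 0) :
    Wbar N p = (setup N).preCurve.ord p (Embed.jbar N) - 1 := by
  rw [setup_ord, Embed.iota_jbar] at h ⊢
  rw [Wbar_apply]
  obtain ⟨⟨P, q⟩, hp⟩ := p
  simp only at h ⊢
  induction P using OnePoint.rec with
  | infty =>
    rw [(datum N).ordAt_jF_infty q, (datum N).W_infty q]
  | coe c' =>
    have := (datum N).ordAt_jF_coe_nonneg c' q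
    omega

theorem nonempty_Pt : Nonempty (setup N).Pt := by
  have hmem := (mem_Pt_iff N (⟨OnePoint.infty,
    DoubleCoset.mk (datum N).H ((datum N).G OnePoint.infty) 1⟩ : (datum N).Pt)).mpr
    (Or.inl (mem_Pt_infty N _))
  exact ⟨⟨_, hmem⟩⟩

/-- constants of `ℚ̄` in `ℂ((w))` -/
theorem algebraMap_qbar_laurent (c : AlgebraicClosure ℚ) :
    algebraMap (AlgebraicClosure ℚ) (LaurentSeries ℂ) c
      = algebraMap ℂ (LaurentSeries ℂ) (algebraMap (AlgebraicClosure ℚ) ℂ c) := by
  rw [HahnSeries.algebraMap_apply', HahnSeries.algebraMap_apply', PowerSeries.algebraMap_apply,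
    PowerSeries.algebraMap_apply, Algebra.algebraMap_self, RingHom.id_apply]

/-- the expansion of the elements of `F̄` at the point `γ z_P` -/
noncomputable def expansion (P : OnePoint ℂ) (γ : SL(2, ℤ)) :
    ↥(modularFunctionFieldBar N) →ₐ[AlgebraicClosure ℚ] LaurentSeries ℂ where
  toFun x := (datum N).T P ((datum N).ρ γ⁻¹ ((Embed.iota N x : ↥((datum N).F)) : Fld N))
  map_one' := by simp
  map_mul' x y := by simp
  map_zero' := by simp
  map_add' x y := by simp
  commutes' c := by
    rw [Embed.iota_algebraMap, algebraMap_qbar_laurent]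
    show (datum N).T P ((datum N).ρ γ⁻¹ (algebraMap ℂ (Fld N) _)) = _
    rw [AlgEquiv.commutes, AlgHom.commutes]

theorem expansion_apply (P : OnePoint ℂ) (γ : SL(2, ℤ)) (x : ↥(modularFunctionFieldBar N)) :
    expansion N P γ x
      = (datum N).T P ((datum N).ρ γ⁻¹ ((Embed.iota N x : ↥((datum N).F)) : Fld N)) := rfl

/-- expansions at the points of the curve over `ℚ̄` -/
theorem exists_expansion (p : (setup N).Pt) :
    ∃ (E : ↥(modularFunctionFieldBar N) →ₐ[AlgebraicClosure ℚ] LaurentSeries ℂ) (a b : ℕ),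
      0 < a ∧ 0 < b ∧ ∀ x : ↥(modularFunctionFieldBar N), x ≠ 0 →
        (a : ℤ) * (E x).order = (b : ℤ) * (setup N).preCurve.ord p x := by
  refine ⟨expansion N p.1.1 p.1.2.out, (datum N).e p.1, (datum N).d p.1.1,
    (datum N).e_pos p.1, (datum N).d_pos p.1.1, fun x _ => ?_⟩
  rw [setup_ord, (datum N).d_mul_ordAt' p.1 (Embed.iota N x), expansion_apply]
  rfl

/-- the genus of `F̄`, given the degree of `W` in the form `2g - 2` -/
theorem genus_eq
    [AlgebraicCurve.HasCanonicalDivisor (K := AlgebraicClosure ℚ)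
      (F := ↥(modularFunctionFieldBar N))]
    (g : ℕ) (hg : PreCurve.deg (datum N).W = 2 * (g : ℤ) - 2) :
    AlgebraicCurve.genus (AlgebraicClosure ℚ) ↥(modularFunctionFieldBar N) = g := by
  obtain ⟨C₀, hC₀⟩ := exists_curve N
  haveI := nonempty_Pt N
  refine Degree.genus_eq C₀ (fun x hx => C₀.finsum_ord_eq_zero hx)
    (fun C' x hx => C'.finsum_ord_eq_zero hx)
    (fun u hu => ?_) (Embed.jbar N) (Embed.jbar_ne_algebraMap N) (L := ℂ) ?_ (Wbar N) ?_ ?_ g ?_
  · haveI := C₀.finite_adjoin_of_nonconst hu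
    exact Algebra.IsAlgebraic.of_finite _ _
  · intro p
    rw [hC₀]
    exact exists_expansion N p
  · intro p c h
    rw [hC₀] at h ⊢
    exact Wbar_fin N p c h
  · intro p h
    rw [hC₀] at h ⊢
    exact Wbar_inf N p h
  · rw [deg_Wbar, hg]

end Fermat.Agent.X0S24.Final

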